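/-
S56 / FLAT / KUM block (sub-architect helper29): DEFINITIONS and basic API (sorry-free).

Setting: `L/ℚ_p` a finite Galois extension of local fields (S55 LOCAL language), `G = Gal(L/ℚ_p)`.

* `flWildGal p L`   : wild inertia `P = {σ | |σ y - y| < |y| for all y ≠ 0}` (normal subgroup)
* `flTameField p L` : `F = L^P`, the maximal tame subextension (an `IntermediateField ℚ_[p] L`);
                      `KmF p L` is its underlying type (a local field, Galois over `ℚ_p`)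
* `kmK p L`         : the residue field of `L` (`= ` the residue field of `F`, `L/F` being totally
                      ramified); `kmRes p L : L → kmK p L` the residue map (junk `0` off `O_L`);
                      `kmAct p L : G →* (kmK p L ≃+* kmK p L)` the action of `G`
* `kmU p L ϖ g`     : `g(ϖ)/ϖ mod 𝔪_L` as a unit of `kmK p L` (`ϖ ∈ F` a uniformizer of `F`)
* `kmE' p L ζ`      : `e' = v_F(ζ - 1)`
* `KmGen p L ζ χ β x` : `β ∈ Lˣ` is a Kummer generator for `χ : P → 𝔽_p` (`s β = ζ^χ(s) β`),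
                      `β^p = 1 + x`, `x ∈ F`
* `kmFilSet p L ζ j`: additive characters of `P` having a Kummer generator with `v_F(x) ≥ j`
* `kmLead p L ϖ j x`: `x/ϖ^j mod 𝔪`;  `kmIota p L ζ ϖ j χ` : leading term of a Kummer generator
-/
import Fermat.Agent.S56.Flat.Defs
import Fermat.Agent.S56.Flat.TameDefs
import Fermat.Agent.S56.Ram.Val

set_option autoImplicit false
set_option linter.unusedSectionVars false

noncomputable section

namespace Fermat.Agent.S56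

open Fermat.Agent.S55 IsLocalRing

section KumDefs

variable (p : ℕ) [Fact p.Prime]
  (L : Type) [Field L] [Algebra ℚ_[p] L] [FiniteDimensional ℚ_[p] L]

/-! ### inertia and wild inertia -/

instance flInertiaGal_normal : (flInertiaGal p L).Normal := by
  refine ⟨fun n hn g y hy => ?_⟩
  have h1 : g⁻¹ y ∈ lfInt p L := algEquiv_mem_lfInt p ℚ_[p] L g⁻¹ hy
  have h2 : (g * n * g⁻¹) y - y = g (n (g⁻¹ y) - g⁻¹ y) := by
    rw [map_sub, AlgEquiv.mul_apply, AlgEquiv.mul_apply]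
    congr 1
    rw [AlgEquiv.aut_inv, AlgEquiv.apply_symm_apply]
  rw [h2, spectralNorm_algEquiv p ℚ_[p] L g]
  exact hn _ h1

theorem mem_flInertiaGal (σ : L ≃ₐ[ℚ_[p]] L) :
    σ ∈ flInertiaGal p L ↔ ∀ y : L, y ∈ lfInt p L → spectralNorm ℚ_[p] L (σ y - y) < 1 := Iff.rfl

/-- wild inertia: `|σ y - y| < |y|` for all `y ≠ 0` -/
def flWildGal : Subgroup (L ≃ₐ[ℚ_[p]] L) where
  carrier := {σ | ∀ y : L, y ≠ 0 → spectralNorm ℚ_[p] L (σ y - y) < spectralNorm ℚ_[p] L y}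
  one_mem' := fun y hy => by
    rw [AlgEquiv.one_apply, sub_self, spectralNorm_zero]
    exact lfv_spectralNorm_pos p L hy
  mul_mem' := by
    intro σ τ hσ hτ y hy
    have hτy : τ y ≠ 0 := (map_ne_zero_iff _ τ.injective).mpr hy
    have h2 : (σ * τ) y - y = (σ (τ y) - τ y) + (τ y - y) := by
      rw [AlgEquiv.mul_apply]; ring
    have h3 : spectralNorm ℚ_[p] L (τ y) = spectralNorm ℚ_[p] L y :=
      spectralNorm_algEquiv p ℚ_[p] L τ y
    rw [h2]
    exact lt_of_le_of_lt (isNonarchimedean_spectralNorm (K := ℚ_[p]) (L := L) _ _)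
      (max_lt (h3 ▸ hσ _ hτy) (hτ _ hy))
  inv_mem' := by
    intro σ hσ y hy
    have hy' : σ⁻¹ y ≠ 0 := (map_ne_zero_iff _ (σ⁻¹).injective).mpr hy
    have h2 : σ⁻¹ y - y = -(σ (σ⁻¹ y) - σ⁻¹ y) := by
      have : σ (σ⁻¹ y) = y := by
        rw [AlgEquiv.aut_inv, AlgEquiv.apply_symm_apply]
      rw [this]; ring
    rw [h2, spectralNorm_neg (Algebra.IsAlgebraic.isAlgebraic _)]
    have := hσ _ hy'
    rwa [spectralNorm_algEquiv p ℚ_[p] L σ⁻¹ y] at this

theorem mem_flWildGal (σ : L ≃ₐ[ℚ_[p]] L) :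
    σ ∈ flWildGal p L ↔
      ∀ y : L, y ≠ 0 → spectralNorm ℚ_[p] L (σ y - y) < spectralNorm ℚ_[p] L y := Iff.rfl

instance flWildGal_normal : (flWildGal p L).Normal := by
  refine ⟨fun n hn g y hy => ?_⟩
  have hy' : g⁻¹ y ≠ 0 := (map_ne_zero_iff _ (g⁻¹).injective).mpr hy
  have h2 : (g * n * g⁻¹) y - y = g (n (g⁻¹ y) - g⁻¹ y) := by
    rw [map_sub, AlgEquiv.mul_apply, AlgEquiv.mul_apply]
    congr 1
    rw [AlgEquiv.aut_inv, AlgEquiv.apply_symm_apply]
  rw [h2, spectralNorm_algEquiv p ℚ_[p] L g]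
  have := hn _ hy'
  rwa [spectralNorm_algEquiv p ℚ_[p] L g⁻¹ y] at this

theorem flWildGal_le_inertia : flWildGal p L ≤ flInertiaGal p L := by
  intro σ hσ y hy
  by_cases hy0 : y = 0
  · rw [hy0, map_zero, sub_self, spectralNorm_zero]; exact zero_lt_one
  · exact lt_of_lt_of_le (hσ y hy0) hy

/-- the maximal tame subextension `F = L^P` -/
abbrev flTameField : IntermediateField ℚ_[p] L := IntermediateField.fixedField (flWildGal p L)

/-- the type of `F = L^P` -/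
abbrev KmF : Type := ↥(flTameField p L)

theorem mem_flTameField (x : L) :
    x ∈ flTameField p L ↔ ∀ σ ∈ flWildGal p L, σ x = x := by
  constructor
  · intro h σ hσ
    exact h ⟨σ, hσ⟩
  · intro h σ
    exact h σ.1 σ.2

/-! ### the residue field of `L` and the action of `G` -/

/-- the residue field of `L` -/
abbrev kmK : Type := ResidueField (lfInt p L)

/-- the residue map `L → k_L` (junk `0` outside `O_L`) -/
def kmRes (x : L) : kmK p L :=
  open Classical in if h : x ∈ lfInt p L then residue (lfInt p L) ⟨x, h⟩ else 0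

/-- the action of `G` on the residue field -/
def kmAct : (L ≃ₐ[ℚ_[p]] L) →* (kmK p L ≃+* kmK p L) :=
  MulSemiringAction.toRingAut (L ≃ₐ[ℚ_[p]] L) (kmK p L)

variable {p L}

theorem kmRes_of_mem {x : L} (hx : x ∈ lfInt p L) :
    kmRes p L x = residue (lfInt p L) ⟨x, hx⟩ := dif_pos hx

theorem kmRes_coe (x : lfInt p L) : kmRes p L (x : L) = residue (lfInt p L) x :=
  kmRes_of_mem x.2

theorem kmRes_of_not_mem {x : L} (hx : x ∉ lfInt p L) : kmRes p L x = 0 := dif_neg hx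

theorem kmRes_surjective : Function.Surjective (kmRes p L) := by
  intro c
  obtain ⟨x, rfl⟩ := residue_surjective c
  exact ⟨(x : L), kmRes_coe x⟩

@[simp] theorem kmRes_zero : kmRes p L 0 = 0 := by
  rw [kmRes_of_mem (zero_mem _)]; exact map_zero _

@[simp] theorem kmRes_one : kmRes p L 1 = 1 := by
  rw [kmRes_of_mem (one_mem _)]; exact map_one _

theorem kmRes_add {x y : L} (hx : x ∈ lfInt p L) (hy : y ∈ lfInt p L) :
    kmRes p L (x + y) = kmRes p L x + kmRes p L y := by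
  rw [kmRes_of_mem hx, kmRes_of_mem hy, kmRes_of_mem (add_mem hx hy), ← map_add]; rfl

theorem kmRes_neg {x : L} (hx : x ∈ lfInt p L) : kmRes p L (-x) = - kmRes p L x := by
  rw [kmRes_of_mem hx, kmRes_of_mem (neg_mem hx), ← map_neg]; rfl

theorem kmRes_sub {x y : L} (hx : x ∈ lfInt p L) (hy : y ∈ lfInt p L) :
    kmRes p L (x - y) = kmRes p L x - kmRes p L y := by
  rw [kmRes_of_mem hx, kmRes_of_mem hy, kmRes_of_mem (sub_mem hx hy), ← map_sub]; rfl

theorem kmRes_mul {x y : L} (hx : x ∈ lfInt p L) (hy : y ∈ lfInt p L) :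
    kmRes p L (x * y) = kmRes p L x * kmRes p L y := by
  rw [kmRes_of_mem hx, kmRes_of_mem hy, kmRes_of_mem (mul_mem hx hy), ← map_mul]; rfl

theorem kmRes_pow {x : L} (hx : x ∈ lfInt p L) (n : ℕ) :
    kmRes p L (x ^ n) = kmRes p L x ^ n := by
  rw [kmRes_of_mem hx, kmRes_of_mem (pow_mem hx n), ← map_pow]; rfl

theorem kmRes_natCast (n : ℕ) : kmRes p L (n : L) = (n : kmK p L) := by
  rw [kmRes_of_mem (natCast_mem _ n), ← map_natCast (residue (lfInt p L))]; rfl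

theorem kmRes_eq_zero_iff {x : L} (hx : x ∈ lfInt p L) :
    kmRes p L x = 0 ↔ spectralNorm ℚ_[p] L x < 1 := by
  rw [kmRes_of_mem hx, residue_eq_zero_iff, mem_maximalIdeal_lfInt_iff]

theorem kmRes_eq_iff {x y : L} (hx : x ∈ lfInt p L) (hy : y ∈ lfInt p L) :
    kmRes p L x = kmRes p L y ↔ spectralNorm ℚ_[p] L (x - y) < 1 := by
  rw [kmRes_of_mem hx, kmRes_of_mem hy, lu_residue_eq_iff]

theorem kmRes_eq_one_iff {x : L} (hx : x ∈ lfInt p L) :
    kmRes p L x = 1 ↔ spectralNorm ℚ_[p] L (x - 1) < 1 := by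
  rw [← kmRes_one, kmRes_eq_iff hx (one_mem _)]

/-- the action of `G` on residues -/
theorem kmAct_kmRes (g : L ≃ₐ[ℚ_[p]] L) (x : L) :
    kmAct p L g (kmRes p L x) = kmRes p L (g x) := by
  by_cases hx : x ∈ lfInt p L
  · have hgx : g x ∈ lfInt p L := algEquiv_mem_lfInt p ℚ_[p] L g hx
    rw [kmRes_of_mem hx, kmRes_of_mem hgx]
    rfl
  · have hgx : g x ∉ lfInt p L := by
      intro h
      apply hx
      have := algEquiv_mem_lfInt p ℚ_[p] L g⁻¹ h
      rwa [AlgEquiv.aut_inv, AlgEquiv.symm_apply_apply] at this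
    rw [kmRes_of_not_mem hx, kmRes_of_not_mem hgx, map_zero]

/-- inertia acts trivially on the residue field -/
theorem kmRes_inertia {σ : L ≃ₐ[ℚ_[p]] L} (hσ : σ ∈ flInertiaGal p L) {x : L}
    (hx : x ∈ lfInt p L) : kmRes p L (σ x) = kmRes p L x := by
  rw [kmRes_eq_iff (algEquiv_mem_lfInt p ℚ_[p] L σ hx) hx]
  exact hσ x hx

theorem kmAct_inertia {σ : L ≃ₐ[ℚ_[p]] L} (hσ : σ ∈ flInertiaGal p L) (c : kmK p L) :
    kmAct p L σ c = c := by
  obtain ⟨x, rfl⟩ := residue_surjective c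
  rw [← kmRes_coe, kmAct_kmRes, kmRes_inertia hσ x.2]

/-- `g(y)/y` is a unit of `O_L` -/
theorem km_quot_mem (g : L ≃ₐ[ℚ_[p]] L) (y : L) : g y / y ∈ lfInt p L := by
  by_cases hy : y = 0
  · rw [hy, map_zero, div_zero]; exact zero_mem _
  · rw [mem_lfInt_iff, div_eq_mul_inv, lu_spectralNorm_mul, spectralNorm_algEquiv p ℚ_[p] L g]
    rw [← lu_spectralNorm_mul, mul_inv_cancel₀ hy, spectralNorm_one]

theorem km_quot_res_ne_zero (g : L ≃ₐ[ℚ_[p]] L) {y : L} (hy : y ≠ 0) :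
    kmRes p L (g y / y) ≠ 0 := by
  rw [Ne, kmRes_eq_zero_iff (km_quot_mem g y), not_lt]
  have hgy : g y ≠ 0 := (map_ne_zero_iff _ g.injective).mpr hy
  apply le_of_eq
  rw [div_eq_mul_inv, lu_spectralNorm_mul, spectralNorm_algEquiv p ℚ_[p] L g,
    ← lu_spectralNorm_mul, mul_inv_cancel₀ hy, spectralNorm_one]

variable (p L)

/-! ### the crossed homomorphism `u` -/

/-- `g(ϖ)/ϖ mod 𝔪_L` as a unit of the residue field (`ϖ ∈ F`) -/
def kmU (ϖ : KmF p L) (g : L ≃ₐ[ℚ_[p]] L) : (kmK p L)ˣ :=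
  open Classical in
  if h : kmRes p L (g (algebraMap (KmF p L) L ϖ) / algebraMap (KmF p L) L ϖ) = 0 then 1
  else Units.mk0 _ h

variable {p L}

theorem kmU_coe {ϖ : KmF p L} (hϖ : ϖ ≠ 0) (g : L ≃ₐ[ℚ_[p]] L) :
    ((kmU p L ϖ g : (kmK p L)ˣ) : kmK p L) =
      kmRes p L (g (algebraMap (KmF p L) L ϖ) / algebraMap (KmF p L) L ϖ) := by
  have h0 : algebraMap (KmF p L) L ϖ ≠ 0 :=
    (map_ne_zero_iff _ (algebraMap (KmF p L) L).injective).mpr hϖ
  unfold kmU
  rw [dif_neg (km_quot_res_ne_zero g h0)]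
  rfl

theorem kmU_mul {ϖ : KmF p L} (hϖ : ϖ ≠ 0) (g h : L ≃ₐ[ℚ_[p]] L) :
    ((kmU p L ϖ (g * h) : (kmK p L)ˣ) : kmK p L) =
      (kmU p L ϖ g : kmK p L) * kmAct p L g (kmU p L ϖ h : kmK p L) := by
  have h0 : algebraMap (KmF p L) L ϖ ≠ 0 :=
    (map_ne_zero_iff _ (algebraMap (KmF p L) L).injective).mpr hϖ
  have hg0 : g (algebraMap (KmF p L) L ϖ) ≠ 0 := (map_ne_zero_iff _ g.injective).mpr h0
  rw [kmU_coe hϖ, kmU_coe hϖ, kmU_coe hϖ, kmAct_kmRes,
    ← kmRes_mul (km_quot_mem g _) (algEquiv_mem_lfInt p ℚ_[p] L g (km_quot_mem h _))]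
  congr 1
  rw [AlgEquiv.mul_apply, map_div₀]
  field_simp

variable (p L)

/-! ### Kummer generators, levels, leading terms -/

/-- `e' = v_F(ζ - 1)` -/
def kmE' (ζ : KmF p L) : ℕ := (lfOrd p (KmF p L) (ζ - 1)).toNat

/-- `β ∈ Lˣ` is a Kummer generator for `χ : P → 𝔽_p` over `F ∋ ζ`, with `β ^ p = 1 + x`. -/
def KmGen (ζ : KmF p L) (χ : ↥(flWildGal p L) → ZMod p) (β : L) (x : KmF p L) : Prop :=
  β ≠ 0 ∧
  (∀ s : ↥(flWildGal p L),
    (s : L ≃ₐ[ℚ_[p]] L) β = algebraMap (KmF p L) L ζ ^ (χ s).val * β) ∧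
  β ^ p = 1 + algebraMap (KmF p L) L x

/-- the additive characters of `P` having a Kummer generator of level `≥ j` -/
def kmFilSet (ζ : KmF p L) (j : ℕ) : Set (↥(flWildGal p L) → ZMod p) :=
  {χ | (∀ s t : ↥(flWildGal p L), χ (s * t) = χ s + χ t) ∧
    ∃ (β : L) (x : KmF p L), KmGen p L ζ χ β x ∧ RmGe p (KmF p L) (j : ℤ) x}

/-- `x / ϖ ^ j mod 𝔪` -/
def kmLead (ϖ : KmF p L) (j : ℕ) (x : KmF p L) : kmK p L :=
  kmRes p L (algebraMap (KmF p L) L (x / ϖ ^ j))

/-- the range of levels where the leading term is meaningful -/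
def KmInRange (ζ : KmF p L) (j : ℕ) : Prop :=
  (p - 1) * kmE' p L ζ ≤ j ∧ j < p * kmE' p L ζ ∧ ¬ p ∣ j

open Classical in
/-- leading term at level `j` of (any) Kummer generator of `χ` of level `≥ j`
(`0` outside the meaningful range) -/
def kmIota (ζ ϖ : KmF p L) (j : ℕ) (χ : ↥(flWildGal p L) → ZMod p) : kmK p L :=
  if h : KmInRange p L ζ j ∧
      ∃ (β : L) (x : KmF p L), KmGen p L ζ χ β x ∧ RmGe p (KmF p L) (j : ℤ) x
  then kmLead p L ϖ j h.2.choose_spec.choose else 0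

variable {p L}

theorem kmFilSet_anti (ζ : KmF p L) {i j : ℕ} (hij : i ≤ j) :
    kmFilSet p L ζ j ⊆ kmFilSet p L ζ i := by
  rintro χ ⟨hχ, β, x, hgen, hx⟩
  exact ⟨hχ, β, x, hgen, hx.mono (by exact_mod_cast hij)⟩

theorem kmIota_of_not_inRange {ζ ϖ : KmF p L} {j : ℕ} (h : ¬ KmInRange p L ζ j)
    (χ : ↥(flWildGal p L) → ZMod p) : kmIota p L ζ ϖ j χ = 0 := by
  unfold kmIota
  rw [dif_neg (fun h' => h h'.1)]

/-- `kmIota` is the leading term of SOME generator of level `≥ j` -/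
theorem kmIota_spec {ζ ϖ : KmF p L} {j : ℕ} (h : KmInRange p L ζ j)
    {χ : ↥(flWildGal p L) → ZMod p} {β : L} {x : KmF p L} (hgen : KmGen p L ζ χ β x)
    (hx : RmGe p (KmF p L) (j : ℤ) x) :
    ∃ (β' : L) (x' : KmF p L), KmGen p L ζ χ β' x' ∧ RmGe p (KmF p L) (j : ℤ) x' ∧
      kmIota p L ζ ϖ j χ = kmLead p L ϖ j x' := by
  have hex : ∃ (β : L) (x : KmF p L), KmGen p L ζ χ β x ∧ RmGe p (KmF p L) (j : ℤ) x :=
    ⟨β, x, hgen, hx⟩
  refine ⟨hex.choose, hex.choose_spec.choose, hex.choose_spec.choose_spec.1,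
    hex.choose_spec.choose_spec.2, ?_⟩
  unfold kmIota
  rw [dif_pos ⟨h, hex⟩]

end KumDefs

end Fermat.Agent.S56
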