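/-
S56 / FLAT / KUM block, leaf 6 LEVEL (helper29): `kmFilSet` is a subgroup; the leading term of a
Kummer generator is well defined, additive, detects `Fil (j+1)`; levels divisible by `p` can be
raised.  Statements VERBATIM from `Kum/SpecLevel.lean`.
-/
import Fermat.Agent.S56.Flat.Kum.Defs
import Fermat.Agent.S56.Ram.Kummer

set_option autoImplicit false
set_option linter.unusedVariables false
set_option linter.unusedSectionVars false

noncomputable section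

namespace Fermat.Agent.S56

open Fermat.Agent.S55 IsLocalRing

/-! ### valuation lemmas in a local field -/

section LocalField

variable {q : ℕ} [Fact q.Prime]
  {K : Type} [Field K] [Algebra ℚ_[q] K] [FiniteDimensional ℚ_[q] K]

theorem kml_rmGe_iff_rmkGe (n : ℤ) (x : K) : RmGe q K n x ↔ RmkGe q K n x := Iff.rfl

/-- `(1 + x)^n - 1` is a multiple of `x` -/
theorem kml_one_add_pow_sub_one (x : K) (n : ℕ) :
    (1 + x) ^ n - 1 = x * ∑ i ∈ Finset.range n, (1 + x) ^ i := by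
  have h := geom_sum_mul (1 + x) n
  rw [add_sub_cancel_left] at h
  rw [mul_comm, h]

theorem kml_rmGe_one_add_pow_sub_one {j : ℤ} (hj : 0 ≤ j) {x : K} (hx : RmGe q K j x) (n : ℕ) :
    RmGe q K j ((1 + x) ^ n - 1) := by
  rw [kml_one_add_pow_sub_one]
  have hx0 : x ∈ lfInt q K := rmGe_zero_iff_mem_lfInt.mp (hx.mono hj)
  exact hx.mul_int (sum_mem fun i _ => pow_mem (add_mem (one_mem _) hx0) i)

/-- `(1 + x)^n - 1 - n x` is a multiple of `x^2` (for integral `x`) -/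
theorem kml_one_add_pow_sub_lin {j : ℤ} (hj : 0 ≤ j) {x : K} (hx : RmGe q K j x) (n : ℕ) :
    RmGe q K (j + j) ((1 + x) ^ n - 1 - (n : K) * x) := by
  induction n with
  | zero => simp [rmGe_zero]
  | succ n ih =>
    have e : (1 + x) ^ (n + 1) - 1 - ((n + 1 : ℕ) : K) * x =
        ((1 + x) ^ n - 1 - (n : K) * x) * (1 + x) + x * ((n : K) * x) := by
      push_cast; ring
    rw [e]
    have hx0 : x ∈ lfInt q K := rmGe_zero_iff_mem_lfInt.mp (hx.mono hj)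
    refine (ih.mul_int (add_mem (one_mem _) hx0)).add ?_
    exact hx.mul (hx.int_mul (natCast_mem _ n))

/-- integrality of a root -/
theorem kml_mem_of_pow_mem {c : K} {n : ℕ} (hn : n ≠ 0) (h : c ^ n ∈ lfInt q K) : c ∈ lfInt q K := by
  by_cases hc : c = 0
  · rw [hc]; exact zero_mem _
  · rw [mem_lfInt_iff_lfOrd q K (pow_ne_zero n hc), lfOrd_pow] at h
    rw [mem_lfInt_iff_lfOrd q K hc]
    have hn' : (0 : ℤ) < (n : ℤ) := by exact_mod_cast Nat.pos_of_ne_zero hn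
    by_contra hlt
    rw [not_le] at hlt
    have := mul_neg_of_pos_of_neg hn' hlt
    omega

/-- `RmGe 1 x` iff `x` is in the maximal ideal -/
theorem kml_rmGe_one_iff {x : K} : RmGe q K 1 x ↔ spectralNorm ℚ_[q] K x < 1 := by
  by_cases hx : x = 0
  · rw [hx, spectralNorm_zero]
    exact ⟨fun _ => zero_lt_one, fun _ => rmGe_zero _⟩
  · rw [rmGe_iff_of_ne_zero hx, spectralNorm_lt_one_iff_lfOrd q K hx]
    omega

/-- a `q`-th root of an element `≡ 1 mod 𝔪` is `≡ 1 mod 𝔪` -/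
theorem kml_sub_one_of_pow {c : K} (hc : RmGe q K 1 (c ^ q - 1)) : RmGe q K 1 (c - 1) := by
  have hq : q.Prime := Fact.out
  have h1 : c ^ q - 1 ∈ lfInt q K := rmGe_zero_iff_mem_lfInt.mp (hc.mono zero_le_one)
  have h2 : c ^ q ∈ lfInt q K := by
    have := add_mem h1 (one_mem (lfInt q K))
    rwa [sub_add_cancel] at this
  have h3 : c ∈ lfInt q K := kml_mem_of_pow_mem hq.ne_zero h2
  have h4 : residue (lfInt q K) (⟨c, h3⟩ ^ q - 1) = 0 := by
    rw [residue_eq_zero_iff, mem_maximalIdeal_lfInt_iff]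
    exact kml_rmGe_one_iff.mp hc
  have h5 : (residue (lfInt q K) ⟨c, h3⟩ - 1) ^ q = 0 := by
    rw [sub_pow_char, one_pow, ← map_pow, ← map_one (residue (lfInt q K)), ← map_sub]
    exact h4
  have h6 : residue (lfInt q K) (⟨c, h3⟩ - 1) = 0 := by
    rw [map_sub, map_one]
    exact pow_eq_zero_iff hq.ne_zero |>.mp h5
  rw [residue_eq_zero_iff, mem_maximalIdeal_lfInt_iff] at h6
  exact kml_rmGe_one_iff.mpr h6

/-- KEY: if `c^q ≡ 1 mod 𝔪^j` with `1 ≤ j < q e'`, `q ∤ j`, then `c^q ≡ 1 mod 𝔪^(j+1)`. -/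
theorem kml_pow_sub_one_ge {e' : ℤ} (he' : ((q : ℤ) - 1) * e' = lfOrd q K (q : K)) {c : K} {j : ℤ}
    (hj1 : 1 ≤ j) (hj2 : j < q * e') (hqj : ¬ (q : ℤ) ∣ j) (hc : RmGe q K j (c ^ q - 1)) :
    RmGe q K (j + 1) (c ^ q - 1) := by
  have hq : q.Prime := Fact.out
  have hq2 : (2 : ℤ) ≤ (q : ℤ) := by exact_mod_cast hq.two_le
  have hy1 : RmGe q K 1 (c - 1) := kml_sub_one_of_pow (hc.mono hj1)
  obtain ⟨y, hy⟩ : ∃ y : K, y = c - 1 := ⟨_, rfl⟩
  have hcy : c = 1 + y := by rw [hy]; ring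
  rw [← hy] at hy1
  by_cases hy0 : y = 0
  · left
    rw [hcy, hy0, add_zero, one_pow, sub_self]
  have hm1 : 1 ≤ lfOrd q K y := hy1.le_ord hy0
  obtain ⟨e, he, hexp⟩ := rmk_one_add_pow q K (y := y) (n := lfOrd q K y) (by omega)
    (rmkGe_of_le le_rfl)
  have he2 : RmGe q K (lfOrd q K (q : K) + lfOrd q K y) e := he
  have hsub : c ^ q - 1 = y ^ q + e := by rw [hcy, hexp]; ring
  have hyq0 : y ^ q ≠ 0 := pow_ne_zero q hy0
  have hyq : lfOrd q K (y ^ q) = (q : ℤ) * lfOrd q K y := lfOrd_pow q K y q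
  rw [hsub] at hc ⊢
  by_cases hlt : lfOrd q K y < e'
  · -- `v(c^q - 1) = q m`
    have h1 : ((q : ℤ) - 1) * (lfOrd q K y + 1) ≤ ((q : ℤ) - 1) * e' :=
      mul_le_mul_of_nonneg_left (by omega) (by omega)
    have h2 : RmGe q K (lfOrd q K (y ^ q) + 1) e := by
      refine he2.mono ?_
      rw [hyq, ← he']
      nlinarith
    obtain ⟨h3, h4⟩ := rm_ord_add_of_gt (q := q) (K := K) hyq0 h2
    have h5 := hc.le_ord h3
    rw [h4, hyq] at h5
    refine Or.inr ?_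
    rw [h4, hyq]
    have h6 : j ≠ (q : ℤ) * lfOrd q K y := fun h => hqj ⟨_, h⟩
    omega
  · rw [not_lt] at hlt
    have h1 : (q : ℤ) * e' ≤ (q : ℤ) * lfOrd q K y :=
      mul_le_mul_of_nonneg_left hlt (by omega)
    refine RmGe.add (Or.inr ?_) (he2.mono ?_)
    · rw [hyq]; omega
    · rw [← he']
      nlinarith

/-- `1 + x` is a unit for `x ∈ 𝔪` -/
theorem kml_one_add_unit {x : K} (hx : RmGe q K 1 x) :
    1 + x ≠ 0 ∧ (1 + x)⁻¹ ∈ lfInt q K ∧ 1 + x ∈ lfInt q K := by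
  have hx0 : x ∈ lfInt q K := rmGe_zero_iff_mem_lfInt.mp (hx.mono zero_le_one)
  by_cases h0 : x = 0
  · rw [h0, add_zero, inv_one]
    exact ⟨one_ne_zero, one_mem _, one_mem _⟩
  have h1 : lfOrd q K (1 : K) < lfOrd q K x := by
    rw [lfOrd_one]; have := hx.le_ord h0; omega
  have h2 := lfOrd_add_eq_of_lt q K one_ne_zero h0 h1
  rw [lfOrd_one] at h2
  have h3 : 1 + x ≠ 0 := by
    intro h
    have hx1 : x = -1 := by linear_combination h
    rw [hx1, lfOrd_neg, lfOrd_one] at h1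
    exact lt_irrefl _ h1
  refine ⟨h3, ?_, add_mem (one_mem _) hx0⟩
  rw [mem_lfInt_iff_lfOrd q K (inv_ne_zero h3), lfOrd_inv, h2]
  simp

/-- RAISE: a level `q m` (`1 ≤ m < e'`) can be raised by a `q`-th power -/
theorem kml_raise {e' : ℤ} (he' : ((q : ℤ) - 1) * e' = lfOrd q K (q : K)) {x : K} {m : ℕ}
    (hm1 : 1 ≤ m) (hm2 : (m : ℤ) < e') (hx : RmGe q K (((q * m : ℕ) : ℤ)) x) :
    ∃ c : K, c ≠ 0 ∧ RmGe q K (((q * m : ℕ) : ℤ) + 1) ((1 + x) * c ^ q - 1) := by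
  have hq : q.Prime := Fact.out
  have hq2 : (2 : ℤ) ≤ (q : ℤ) := by exact_mod_cast hq.two_le
  obtain ⟨π, hπ⟩ := exists_isLfUniformizer q K
  have hπ0 : π ≠ 0 := IsLfUniformizer.ne_zero q K hπ
  have hπ1 : lfOrd q K π = 1 := hπ
  have hπge : RmGe q K 1 π := Or.inr (le_of_eq hπ1.symm)
  have hπn0 : π ^ (q * m) ≠ 0 := pow_ne_zero _ hπ0
  have hπn : lfOrd q K (π ^ (q * m)) = ((q * m : ℕ) : ℤ) := by
    rw [lfOrd_pow, hπ1, mul_one]
  have hπnge : RmGe q K (((q * m : ℕ) : ℤ)) (π ^ (q * m)) := Or.inr (le_of_eq hπn.symm)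
  -- `u = x / π^(qm)` is integral
  have hu : RmGe q K 0 (x * (π ^ (q * m))⁻¹) := by
    rcases hx with h | h
    · left; rw [h, zero_mul]
    · by_cases hx0 : x = 0
      · left; rw [hx0, zero_mul]
      · right
        rw [lfOrd_mul q K hx0 (inv_ne_zero hπn0), lfOrd_inv, hπn]
        omega
  have hu' : -(x * (π ^ (q * m))⁻¹) ∈ lfInt q K :=
    neg_mem (rmGe_zero_iff_mem_lfInt.mp hu)
  obtain ⟨a, ha, hcong⟩ := rmk_exists_pow_congr q K _ hu'
  have hcong' : RmGe q K 1 (x * (π ^ (q * m))⁻¹ + a ^ q) := by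
    have h1 : RmGe q K 1 (-(x * (π ^ (q * m))⁻¹) - a ^ q) := hcong
    have h2 := h1.neg
    have e : -(-(x * (π ^ (q * m))⁻¹) - a ^ q) = x * (π ^ (q * m))⁻¹ + a ^ q := by ring
    rwa [e] at h2
  -- `y = π^m a`, `c = 1 + y`
  obtain ⟨y, hy⟩ : ∃ y : K, y = π ^ m * a := ⟨_, rfl⟩
  have hym : RmGe q K (m : ℤ) y := by
    rw [hy]
    refine RmGe.mul_int (Or.inr ?_) ha
    rw [lfOrd_pow, hπ1, mul_one]
  have hy1 : RmGe q K 1 y := hym.mono (by exact_mod_cast hm1)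
  obtain ⟨e, he, hexp⟩ := rmk_one_add_pow q K (y := y) (n := (m : ℤ)) (by positivity) hym
  have he2 : RmGe q K (lfOrd q K (q : K) + (m : ℤ)) e := he
  have hyq : y ^ q = π ^ (q * m) * a ^ q := by
    rw [hy, mul_pow, ← pow_mul, mul_comm m q]
  obtain ⟨hc0, -, -⟩ := kml_one_add_unit hy1
  refine ⟨1 + y, hc0, ?_⟩
  have hkey : (1 + x) * (1 + y) ^ q - 1 =
      π ^ (q * m) * (x * (π ^ (q * m))⁻¹ + a ^ q) + e + x * (y ^ q + e) := by
    rw [hexp, hyq]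
    field_simp
    ring
  rw [hkey]
  have hqm : (((q * m : ℕ) : ℤ)) = (q : ℤ) * (m : ℤ) := by push_cast; ring
  have hege : RmGe q K (((q * m : ℕ) : ℤ) + 1) e := by
    refine he2.mono ?_
    rw [← he', hqm]
    have h1 : ((q : ℤ) - 1) * ((m : ℤ) + 1) ≤ ((q : ℤ) - 1) * e' :=
      mul_le_mul_of_nonneg_left (by omega) (by omega)
    nlinarith
  have hyqge : RmGe q K 1 (y ^ q) := by
    have := hy1.pow q
    refine this.mono ?_
    have : (1 : ℤ) ≤ (q : ℤ) := by omega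
    simpa using this
  refine RmGe.add (RmGe.add ?_ hege) ?_
  · exact hπnge.mul hcong'
  · refine hx.mul (hyqge.add (hege.mono ?_))
    have : (0 : ℤ) ≤ ((q * m : ℕ) : ℤ) := by positivity
    omega

end LocalField

/-! ### Kummer generators -/

section Gen

variable {p : ℕ} [Fact p.Prime]
  {L : Type} [Field L] [Algebra ℚ_[p] L] [FiniteDimensional ℚ_[p] L] [IsGalois ℚ_[p] L]

/-- elements of `F` are fixed by `P` -/
theorem kml_fixed (s : ↥(flWildGal p L)) (x : KmF p L) :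
    (s : L ≃ₐ[ℚ_[p]] L) (algebraMap (KmF p L) L x) = algebraMap (KmF p L) L x :=
  x.2 s

theorem kml_pow_val_add {ζ : L} (hζ : ζ ^ p = 1) (a b : ZMod p) :
    ζ ^ (a + b).val = ζ ^ a.val * ζ ^ b.val := by
  rw [← pow_add, ZMod.val_add, ← Nat.mod_add_div (a.val + b.val) p, pow_add, pow_mul, hζ, one_pow,
    mul_one, Nat.mod_add_div]

theorem kml_gen_one (ζ : KmF p L) : KmGen p L ζ 0 1 0 := by
  refine ⟨one_ne_zero, fun s => ?_, ?_⟩
  · rw [map_one, Pi.zero_apply, ZMod.val_zero, pow_zero, one_mul]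
  · rw [one_pow, map_zero, add_zero]

theorem kml_gen_mul {ζ : KmF p L} (hζ : IsPrimitiveRoot ζ p)
    {χ χ' : ↥(flWildGal p L) → ZMod p} {β β' : L} {x x' : KmF p L}
    (h : KmGen p L ζ χ β x) (h' : KmGen p L ζ χ' β' x') :
    KmGen p L ζ (χ + χ') (β * β') (x + x' + x * x') := by
  obtain ⟨h1, h2, h3⟩ := h
  obtain ⟨h1', h2', h3'⟩ := h'
  have hζp : algebraMap (KmF p L) L ζ ^ p = 1 := by
    rw [← map_pow, hζ.pow_eq_one, map_one]
  refine ⟨mul_ne_zero h1 h1', fun s => ?_, ?_⟩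
  · rw [map_mul, h2 s, h2' s, Pi.add_apply, kml_pow_val_add hζp]
    ring
  · rw [mul_pow, h3, h3']
    simp only [map_add, map_mul]
    ring

theorem kml_gen_pow {ζ : KmF p L} (hζ : IsPrimitiveRoot ζ p)
    {χ : ↥(flWildGal p L) → ZMod p} {β : L} {x : KmF p L}
    (h : KmGen p L ζ χ β x) (n : ℕ) :
    KmGen p L ζ (n • χ) (β ^ n) ((1 + x) ^ n - 1) := by
  induction n with
  | zero =>
    rw [zero_smul, pow_zero, pow_zero, sub_self]
    exact kml_gen_one ζ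
  | succ n ih =>
    have := kml_gen_mul hζ ih h
    rw [succ_nsmul, pow_succ]
    have e : (1 + x) ^ (n + 1) - 1 = (1 + x) ^ n - 1 + x + ((1 + x) ^ n - 1) * x := by ring
    rw [e]
    exact this

/-- changing the generator by an element of `Fˣ` -/
theorem kml_gen_mul_base {ζ : KmF p L} {χ : ↥(flWildGal p L) → ZMod p} {β : L} {x : KmF p L}
    (h : KmGen p L ζ χ β x) {c : KmF p L} (hc : c ≠ 0) :
    KmGen p L ζ χ (β * algebraMap (KmF p L) L c) ((1 + x) * c ^ p - 1) := by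
  obtain ⟨h1, h2, h3⟩ := h
  have hc' : algebraMap (KmF p L) L c ≠ 0 :=
    (map_ne_zero_iff _ (algebraMap (KmF p L) L).injective).mpr hc
  refine ⟨mul_ne_zero h1 hc', fun s => ?_, ?_⟩
  · rw [map_mul, h2 s, kml_fixed, mul_assoc]
  · rw [mul_pow, h3]
    simp only [map_sub, map_mul, map_add, map_one, map_pow]
    ring

/-- two generators of the same character differ by an element of `Fˣ` -/
theorem kml_gen_quot {ζ : KmF p L} {χ : ↥(flWildGal p L) → ZMod p} {β β' : L} {x x' : KmF p L}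
    (h : KmGen p L ζ χ β x) (h' : KmGen p L ζ χ β' x') :
    ∃ c : KmF p L, c ≠ 0 ∧ β' = β * algebraMap (KmF p L) L c ∧ 1 + x' = (1 + x) * c ^ p := by
  obtain ⟨h1, h2, h3⟩ := h
  obtain ⟨h1', h2', h3'⟩ := h'
  have hmem : β' / β ∈ flTameField p L := by
    rw [mem_flTameField]
    intro σ hσ
    have e1 := h2 ⟨σ, hσ⟩
    have e2 := h2' ⟨σ, hσ⟩
    simp only at e1 e2
    have hz : algebraMap (KmF p L) L ζ ^ (χ ⟨σ, hσ⟩).val ≠ 0 := by
      intro h0
      rw [h0, zero_mul] at e1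
      exact h1 ((map_eq_zero_iff _ σ.injective).mp e1)
    rw [map_div₀, e1, e2, mul_div_mul_left _ _ hz]
  refine ⟨⟨β' / β, hmem⟩, ?_, ?_, ?_⟩
  · intro h0
    have : β' / β = 0 := congrArg Subtype.val h0
    exact (div_ne_zero h1' h1) this
  · change β' = β * (β' / β)
    field_simp
  · apply (algebraMap (KmF p L) L).injective
    simp only [map_add, map_mul, map_one, map_pow]
    change 1 + algebraMap (KmF p L) L x' = (1 + algebraMap (KmF p L) L x) * (β' / β) ^ p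
    rw [← h3, ← h3', div_pow]
    field_simp

end Gen

/-! ### leading terms -/

section Lead

variable {p : ℕ} [Fact p.Prime]
  {L : Type} [Field L] [Algebra ℚ_[p] L] [FiniteDimensional ℚ_[p] L] [IsGalois ℚ_[p] L]

/-- `e' = v_F(ζ - 1) > 0` and `(p - 1) e' = v_F(p)` -/
theorem kml_e' {ζ : KmF p L} (hζ : IsPrimitiveRoot ζ p) :
    ((kmE' p L ζ : ℕ) : ℤ) = lfOrd p (KmF p L) (ζ - 1) ∧ 0 < kmE' p L ζ ∧
      ((p : ℤ) - 1) * ((kmE' p L ζ : ℕ) : ℤ) = lfOrd p (KmF p L) ((p : ℕ) : KmF p L) := by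
  have hp : p.Prime := Fact.out
  have hp2 : (2 : ℤ) ≤ (p : ℤ) := by exact_mod_cast hp.two_le
  have hord := rm_ord_zeta_sub_one p (KmF p L) hζ
  have hpos := lro_lfOrd_prime_pos p (KmF p L)
  have hordpos : 0 < lfOrd p (KmF p L) (ζ - 1) := by
    rw [← hord] at hpos
    exact (mul_pos_iff_of_pos_left (by omega)).mp hpos
  have hE' : ((kmE' p L ζ : ℕ) : ℤ) = lfOrd p (KmF p L) (ζ - 1) :=
    Int.toNat_of_nonneg hordpos.le
  refine ⟨hE', ?_, ?_⟩
  · have : (0 : ℤ) < (kmE' p L ζ : ℤ) := by rw [hE']; exact hordpos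
    exact_mod_cast this
  · rw [hE']; exact hord

theorem kml_one_le_of_inRange {ζ : KmF p L} (hζ : IsPrimitiveRoot ζ p) {j : ℕ}
    (hj : (p - 1) * kmE' p L ζ ≤ j) : 1 ≤ j := by
  have hp : p.Prime := Fact.out
  obtain ⟨-, h2, -⟩ := kml_e' hζ
  have h1 : 1 ≤ p - 1 := by have := hp.two_le; omega
  calc 1 = 1 * 1 := rfl
    _ ≤ (p - 1) * kmE' p L ζ := Nat.mul_le_mul h1 h2
    _ ≤ j := hj

variable {ϖ : KmF p L} (hϖ : IsLfUniformizer p (KmF p L) ϖ)

include hϖ in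
theorem kml_div_rmGe {j : ℕ} {x : KmF p L} {n : ℤ} (hx : RmGe p (KmF p L) ((j : ℤ) + n) x) :
    RmGe p (KmF p L) n (x / ϖ ^ j) := by
  have hϖ0 : ϖ ≠ 0 := IsLfUniformizer.ne_zero p (KmF p L) hϖ
  have hϖ1 : lfOrd p (KmF p L) ϖ = 1 := hϖ
  by_cases hx0 : x = 0
  · left; rw [hx0, zero_div]
  · right
    rw [div_eq_mul_inv, lfOrd_mul p (KmF p L) hx0 (inv_ne_zero (pow_ne_zero j hϖ0)), lfOrd_inv,
      lfOrd_pow, hϖ1, mul_one]
    have := hx.le_ord hx0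
    omega

include hϖ in
theorem kml_div_mem {j : ℕ} {x : KmF p L} (hx : RmGe p (KmF p L) (j : ℤ) x) :
    algebraMap (KmF p L) L (x / ϖ ^ j) ∈ lfInt p L := by
  apply algebraMap_mem_lfInt p (KmF p L) L
  apply rmGe_zero_iff_mem_lfInt.mp
  exact kml_div_rmGe hϖ (by rwa [add_zero])

include hϖ in
theorem kml_lead_add {j : ℕ} {x x' : KmF p L} (hx : RmGe p (KmF p L) (j : ℤ) x)
    (hx' : RmGe p (KmF p L) (j : ℤ) x') :
    kmLead p L ϖ j (x + x') = kmLead p L ϖ j x + kmLead p L ϖ j x' := by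
  unfold kmLead
  rw [add_div, map_add, kmRes_add (kml_div_mem hϖ hx) (kml_div_mem hϖ hx')]

include hϖ in
theorem kml_lead_eq_zero_iff {j : ℕ} {x : KmF p L} (hx : RmGe p (KmF p L) (j : ℤ) x) :
    kmLead p L ϖ j x = 0 ↔ RmGe p (KmF p L) ((j : ℤ) + 1) x := by
  have hϖ0 : ϖ ≠ 0 := IsLfUniformizer.ne_zero p (KmF p L) hϖ
  have hϖ1 : lfOrd p (KmF p L) ϖ = 1 := hϖ
  unfold kmLead
  rw [kmRes_eq_zero_iff (kml_div_mem hϖ hx), lfv_spectralNorm_tower p (KmF p L) L,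
    ← kml_rmGe_one_iff]
  constructor
  · intro h
    by_cases hx0 : x = 0
    · left; exact hx0
    · right
      have h1 := h.le_ord (div_ne_zero hx0 (pow_ne_zero j hϖ0))
      rw [div_eq_mul_inv, lfOrd_mul p (KmF p L) hx0 (inv_ne_zero (pow_ne_zero j hϖ0)), lfOrd_inv,
        lfOrd_pow, hϖ1, mul_one] at h1
      omega
  · intro h
    exact kml_div_rmGe hϖ h

include hϖ in
theorem kml_lead_of_ge {j : ℕ} {x : KmF p L} (hx : RmGe p (KmF p L) ((j : ℤ) + 1) x) :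
    kmLead p L ϖ j x = 0 :=
  (kml_lead_eq_zero_iff hϖ (hx.mono (by omega))).mpr hx

include hϖ in
/-- UNIQUENESS of the leading term -/
theorem kml_lead_unique {ζ : KmF p L} (hζ : IsPrimitiveRoot ζ p) {j : ℕ}
    (hr : KmInRange p L ζ j) {χ : ↥(flWildGal p L) → ZMod p} {β β' : L} {x x' : KmF p L}
    (h : KmGen p L ζ χ β x) (h' : KmGen p L ζ χ β' x')
    (hx : RmGe p (KmF p L) (j : ℤ) x) (hx' : RmGe p (KmF p L) (j : ℤ) x') :
    kmLead p L ϖ j x' = kmLead p L ϖ j x := by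
  obtain ⟨hE1, hE2, hE3⟩ := kml_e' hζ
  obtain ⟨hr1, hr2, hr3⟩ := hr
  have hj1 : 1 ≤ j := kml_one_le_of_inRange hζ hr1
  have hj1' : (1 : ℤ) ≤ (j : ℤ) := by exact_mod_cast hj1
  obtain ⟨c, hc0, -, hc⟩ := kml_gen_quot h h'
  obtain ⟨hu0, huinv, hu⟩ := kml_one_add_unit (hx.mono hj1')
  -- `c^p - 1 = (x' - x) / (1 + x)`
  have e1 : c ^ p - 1 = (x' - x) * (1 + x)⁻¹ := by
    field_simp
    linear_combination -hc
  have h1 : RmGe p (KmF p L) (j : ℤ) (c ^ p - 1) := by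
    rw [e1]
    exact (hx'.sub hx).mul_int huinv
  have h2 : RmGe p (KmF p L) ((j : ℤ) + 1) (c ^ p - 1) := by
    refine kml_pow_sub_one_ge hE3 hj1' ?_ ?_ h1
    · have : ((j : ℕ) : ℤ) < ((p * kmE' p L ζ : ℕ) : ℤ) := by exact_mod_cast hr2
      simpa using this
    · exact fun hd => hr3 (Int.natCast_dvd_natCast.mp hd)
  have h3 : RmGe p (KmF p L) ((j : ℤ) + 1) (x' - x) := by
    have e2 : x' - x = (c ^ p - 1) * (1 + x) := by linear_combination hc
    rw [e2]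
    exact h2.mul_int hu
  have e3 : x' = x + (x' - x) := by ring
  rw [e3, kml_lead_add hϖ hx (h3.mono (by omega)), kml_lead_of_ge hϖ h3, add_zero]

end Lead

/-! ### the exported statements (VERBATIM `Kum/SpecLevel.lean`) -/

section Level

variable {p : ℕ} [Fact p.Prime]
  {L : Type} [Field L] [Algebra ℚ_[p] L] [FiniteDimensional ℚ_[p] L] [IsGalois ℚ_[p] L]

theorem km_filSet_zero (ζ : KmF p L) (j : ℕ) :
    (0 : ↥(flWildGal p L) → ZMod p) ∈ kmFilSet p L ζ j :=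
  ⟨fun s t => by simp, 1, 0, kml_gen_one ζ, rmGe_zero _⟩

theorem km_filSet_add {ζ : KmF p L} (hζ : IsPrimitiveRoot ζ p) (j : ℕ)
    {χ χ' : ↥(flWildGal p L) → ZMod p}
    (hχ : χ ∈ kmFilSet p L ζ j) (hχ' : χ' ∈ kmFilSet p L ζ j) : χ + χ' ∈ kmFilSet p L ζ j := by
  obtain ⟨hadd, β, x, hgen, hx⟩ := hχ
  obtain ⟨hadd', β', x', hgen', hx'⟩ := hχ'
  refine ⟨fun s t => ?_, β * β', x + x' + x * x', kml_gen_mul hζ hgen hgen', ?_⟩
  · rw [Pi.add_apply, Pi.add_apply, Pi.add_apply, hadd, hadd']; ring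
  · refine (hx.add hx').add ((hx.mul hx').mono ?_)
    have : (0 : ℤ) ≤ (j : ℤ) := by positivity
    omega

theorem km_filSet_nsmul {ζ : KmF p L} (hζ : IsPrimitiveRoot ζ p) (j : ℕ)
    {χ : ↥(flWildGal p L) → ZMod p} (hχ : χ ∈ kmFilSet p L ζ j) (n : ℕ) :
    n • χ ∈ kmFilSet p L ζ j := by
  induction n with
  | zero => rw [zero_smul]; exact km_filSet_zero ζ j
  | succ n ih => rw [succ_nsmul]; exact km_filSet_add hζ j ih hχ

theorem km_filSet_neg {ζ : KmF p L} (hζ : IsPrimitiveRoot ζ p) (j : ℕ)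
    {χ : ↥(flWildGal p L) → ZMod p}
    (hχ : χ ∈ kmFilSet p L ζ j) : -χ ∈ kmFilSet p L ζ j := by
  have hp : p.Prime := Fact.out
  have h := km_filSet_nsmul hζ j hχ (p - 1)
  have e : (p - 1) • χ = -χ := by
    funext s
    rw [Pi.smul_apply, Pi.neg_apply, nsmul_eq_mul, Nat.cast_sub hp.one_le, Nat.cast_one,
      ZMod.natCast_self, zero_sub, neg_one_mul]
  rwa [e] at h

/-- the leading term does not depend on the Kummer generator -/
theorem km_iota_eq {ζ : KmF p L} (hζ : IsPrimitiveRoot ζ p) {ϖ : KmF p L}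
    (hϖ : IsLfUniformizer p (KmF p L) ϖ) {j : ℕ} (hr : KmInRange p L ζ j)
    {χ : ↥(flWildGal p L) → ZMod p} {β : L} {x : KmF p L} (hgen : KmGen p L ζ χ β x)
    (hx : RmGe p (KmF p L) (j : ℤ) x) : kmIota p L ζ ϖ j χ = kmLead p L ϖ j x := by
  obtain ⟨β', x', hgen', hx', hι⟩ := kmIota_spec (ϖ := ϖ) hr hgen hx
  rw [hι]
  exact kml_lead_unique hϖ hζ hr hgen hgen' hx hx'

theorem km_iota_add {ζ : KmF p L} (hζ : IsPrimitiveRoot ζ p) {ϖ : KmF p L}
    (hϖ : IsLfUniformizer p (KmF p L) ϖ) {j : ℕ} (hr : KmInRange p L ζ j)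
    {χ χ' : ↥(flWildGal p L) → ZMod p} (hχ : χ ∈ kmFilSet p L ζ j)
    (hχ' : χ' ∈ kmFilSet p L ζ j) :
    kmIota p L ζ ϖ j (χ + χ') = kmIota p L ζ ϖ j χ + kmIota p L ζ ϖ j χ' := by
  obtain ⟨hadd, β, x, hgen, hx⟩ := hχ
  obtain ⟨hadd', β', x', hgen', hx'⟩ := hχ'
  have hj1 : 1 ≤ j := kml_one_le_of_inRange hζ hr.1
  have hxx : RmGe p (KmF p L) ((j : ℤ) + 1) (x * x') := by
    refine (hx.mul hx').mono ?_
    have : (1 : ℤ) ≤ (j : ℤ) := by exact_mod_cast hj1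
    omega
  have hsum : RmGe p (KmF p L) (j : ℤ) (x + x') := hx.add hx'
  rw [km_iota_eq hζ hϖ hr hgen hx, km_iota_eq hζ hϖ hr hgen' hx',
    km_iota_eq hζ hϖ hr (kml_gen_mul hζ hgen hgen') (hsum.add (hxx.mono (by omega))),
    kml_lead_add hϖ hsum (hxx.mono (by omega)), kml_lead_add hϖ hx hx', kml_lead_of_ge hϖ hxx,
    add_zero]

theorem km_iota_eq_zero_iff {ζ : KmF p L} (hζ : IsPrimitiveRoot ζ p) {ϖ : KmF p L}
    (hϖ : IsLfUniformizer p (KmF p L) ϖ) {j : ℕ} (hr : KmInRange p L ζ j)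
    {χ : ↥(flWildGal p L) → ZMod p} (hχ : χ ∈ kmFilSet p L ζ j) :
    kmIota p L ζ ϖ j χ = 0 ↔ χ ∈ kmFilSet p L ζ (j + 1) := by
  obtain ⟨hadd, β, x, hgen, hx⟩ := hχ
  constructor
  · intro h
    rw [km_iota_eq hζ hϖ hr hgen hx, kml_lead_eq_zero_iff hϖ hx] at h
    refine ⟨hadd, β, x, hgen, ?_⟩
    push_cast
    exact h
  · rintro ⟨-, β', x', hgen', hx'⟩
    have hx'' : RmGe p (KmF p L) ((j : ℤ) + 1) x' := by
      push_cast at hx'
      exact hx'
    rw [km_iota_eq hζ hϖ hr hgen' (hx''.mono (by omega))]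
    exact kml_lead_of_ge hϖ hx''

/-- a level divisible by `p` (below `p e'`) can be raised -/
theorem km_filSet_succ_of_dvd {ζ : KmF p L} (hζ : IsPrimitiveRoot ζ p) {j : ℕ}
    (hj1 : (p - 1) * kmE' p L ζ ≤ j) (hj : j < p * kmE' p L ζ) (hdvd : p ∣ j) :
    kmFilSet p L ζ j ⊆ kmFilSet p L ζ (j + 1) := by
  rintro χ ⟨hadd, β, x, hgen, hx⟩
  have hp : p.Prime := Fact.out
  obtain ⟨hE1, hE2, hE3⟩ := kml_e' hζ
  obtain ⟨m, rfl⟩ := hdvd
  have h1 : 1 ≤ p * m := kml_one_le_of_inRange hζ hj1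
  have hm1 : 1 ≤ m := by
    rcases Nat.eq_zero_or_pos m with h | h
    · rw [h, mul_zero] at h1; omega
    · exact h
  have hm2 : m < kmE' p L ζ := Nat.lt_of_mul_lt_mul_left hj
  obtain ⟨c, hc0, hc⟩ := kml_raise hE3 hm1 (by exact_mod_cast hm2) hx
  refine ⟨hadd, β * algebraMap (KmF p L) L c, (1 + x) * c ^ p - 1, kml_gen_mul_base hgen hc0, ?_⟩
  push_cast at hc ⊢
  exact hc

end Level

end Fermat.Agent.S56
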