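/-
S56 / FLAT / KUM block, leaf 7 CONJ (helper29): conjugation of Kummer generators,
`b_{gχ} = g(b_χ)^(ω(g)⁻¹)`.  Statements VERBATIM from `Kum/SpecConj.lean`.
-/
import Fermat.Agent.S56.Flat.Kum.Level

set_option autoImplicit false
set_option linter.unusedVariables false
set_option linter.unusedSectionVars false
set_option linter.style.haveILetI false

noncomputable section

namespace Fermat.Agent.S56

open Fermat.Agent.S55 IsLocalRing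

section ConjAux

variable {p : ℕ} [Fact p.Prime]
  {L : Type} [Field L] [Algebra ℚ_[p] L] [FiniteDimensional ℚ_[p] L] [IsGalois ℚ_[p] L]

/-- the restriction of `g` to `F` -/
def kmcRes (g : L ≃ₐ[ℚ_[p]] L) : KmF p L ≃ₐ[ℚ_[p]] KmF p L :=
  AlgEquiv.restrictNormal g (KmF p L)

theorem kmcRes_commutes (g : L ≃ₐ[ℚ_[p]] L) (x : KmF p L) :
    algebraMap (KmF p L) L (kmcRes g x) = g (algebraMap (KmF p L) L x) :=
  AlgEquiv.restrictNormal_commutes g (KmF p L) x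

theorem kmc_pow_of_cast_eq_one {ζ : L} (hζ : ζ ^ p = 1) {m : ℕ} (hm : ((m : ℕ) : ZMod p) = 1) :
    ζ ^ m = ζ := by
  have hp : p.Prime := Fact.out
  have h1 : m % p = 1 := by
    have h2 : ((m : ℕ) : ZMod p) = ((1 : ℕ) : ZMod p) := by rw [hm, Nat.cast_one]
    rw [ZMod.natCast_eq_natCast_iff'] at h2
    rw [h2, Nat.mod_eq_of_lt hp.one_lt]
  rw [← Nat.mod_add_div m p, pow_add, pow_mul, hζ, one_pow, mul_one, h1, pow_one]

theorem tkConj_apply (g : L ≃ₐ[ℚ_[p]] L) (χ : ↥(flWildGal p L) → ZMod p)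
    (s : ↥(flWildGal p L)) :
    tkConj (flWildGal p L) g χ s = χ ⟨g⁻¹ * (s : L ≃ₐ[ℚ_[p]] L) * g, by
      have := (flWildGal_normal p L).conj_mem (s : L ≃ₐ[ℚ_[p]] L) s.2 g⁻¹
      rwa [inv_inv] at this⟩ := rfl

/-- conjugating a Kummer generator -/
theorem kmc_gen_conj {ζ : KmF p L} (hζ : IsPrimitiveRoot ζ p) (g : L ≃ₐ[ℚ_[p]] L)
    {χ : ↥(flWildGal p L) → ZMod p} {β : L} {x : KmF p L} (h : KmGen p L ζ χ β x) (a c : ℕ)
    (hg : g (algebraMap (KmF p L) L ζ) = algebraMap (KmF p L) L ζ ^ c)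
    (hac : ((a * c : ℕ) : ZMod p) = 1) :
    KmGen p L ζ (tkConj (flWildGal p L) g χ) ((g β) ^ a) ((1 + kmcRes g x) ^ a - 1) := by
  obtain ⟨h1, h2, h3⟩ := h
  have hgβ : g β ≠ 0 := (map_ne_zero_iff _ g.injective).mpr h1
  have hζp : algebraMap (KmF p L) L ζ ^ p = 1 := by
    rw [← map_pow, hζ.pow_eq_one, map_one]
  refine ⟨pow_ne_zero a hgβ, fun s => ?_, ?_⟩
  · rw [tkConj_apply]
    set s' : ↥(flWildGal p L) := ⟨g⁻¹ * (s : L ≃ₐ[ℚ_[p]] L) * g, by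
      have := (flWildGal_normal p L).conj_mem (s : L ≃ₐ[ℚ_[p]] L) s.2 g⁻¹
      rwa [inv_inv] at this⟩ with hs'
    have e1 : (s : L ≃ₐ[ℚ_[p]] L) (g β) = g ((s' : L ≃ₐ[ℚ_[p]] L) β) := by
      change (s : L ≃ₐ[ℚ_[p]] L) (g β) = g ((g⁻¹ * (s : L ≃ₐ[ℚ_[p]] L) * g) β)
      rw [AlgEquiv.mul_apply, AlgEquiv.mul_apply, AlgEquiv.aut_inv, AlgEquiv.apply_symm_apply]
    rw [map_pow, e1, h2 s', map_mul, map_pow, hg, mul_pow, ← pow_mul, ← pow_mul]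
    congr 1
    have e2 : c * ((χ s').val * a) = (a * c) * (χ s').val := by ring
    rw [e2, pow_mul, kmc_pow_of_cast_eq_one hζp hac]
  · rw [← pow_mul, mul_comm, pow_mul, ← map_pow, h3, map_add, map_one, ← kmcRes_commutes]
    simp only [map_sub, map_pow, map_add, map_one]
    ring

/-- `tkConj` preserves additivity -/
theorem kmc_conj_add (g : L ≃ₐ[ℚ_[p]] L) {χ : ↥(flWildGal p L) → ZMod p}
    (hχ : ∀ s t : ↥(flWildGal p L), χ (s * t) = χ s + χ t) (s t : ↥(flWildGal p L)) :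
    tkConj (flWildGal p L) g χ (s * t) =
      tkConj (flWildGal p L) g χ s + tkConj (flWildGal p L) g χ t := by
  rw [tkConj_apply, tkConj_apply, tkConj_apply, ← hχ]
  congr 1
  apply Subtype.ext
  change g⁻¹ * ((s : L ≃ₐ[ℚ_[p]] L) * (t : L ≃ₐ[ℚ_[p]] L)) * g =
    g⁻¹ * (s : L ≃ₐ[ℚ_[p]] L) * g * (g⁻¹ * (t : L ≃ₐ[ℚ_[p]] L) * g)
  group

/-- existence of `a, c` -/
theorem kmc_exists_ac {ζ : KmF p L} (hζ : IsPrimitiveRoot ζ p) (g : L ≃ₐ[ℚ_[p]] L) :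
    ∃ a c : ℕ, g (algebraMap (KmF p L) L ζ) = algebraMap (KmF p L) L ζ ^ c ∧
      ((a * c : ℕ) : ZMod p) = 1 := by
  have hp : p.Prime := Fact.out
  haveI : NeZero p := ⟨hp.ne_zero⟩
  have hζL : IsPrimitiveRoot (algebraMap (KmF p L) L ζ) p :=
    hζ.map_of_injective (algebraMap (KmF p L) L).injective
  refine ⟨(((hζL.autToPow ℚ_[p] g)⁻¹ : (ZMod p)ˣ) : ZMod p).val,
    ((hζL.autToPow ℚ_[p] g : (ZMod p)ˣ) : ZMod p).val, (hζL.autToPow_spec ℚ_[p] g).symm, ?_⟩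
  rw [Nat.cast_mul, ZMod.natCast_val, ZMod.natCast_val, ZMod.cast_id', id, id]
  exact Units.inv_mul _

variable {ϖ : KmF p L} (hϖ : IsLfUniformizer p (KmF p L) ϖ)

include hϖ in
/-- leading term of `n • y` -/
theorem kmc_lead_natCast_mul {j : ℕ} {y : KmF p L} (hy : RmGe p (KmF p L) (j : ℤ) y) (n : ℕ) :
    kmLead p L ϖ j ((n : KmF p L) * y) = n • kmLead p L ϖ j y := by
  unfold kmLead
  rw [mul_div_assoc, map_mul, map_natCast,
    kmRes_mul (natCast_mem _ n) (kml_div_mem hϖ hy), kmRes_natCast, nsmul_eq_mul]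

include hϖ in
/-- leading term of `(1 + y)^n - 1` -/
theorem kmc_lead_one_add_pow {j : ℕ} (hj : 1 ≤ j) {y : KmF p L}
    (hy : RmGe p (KmF p L) (j : ℤ) y) (n : ℕ) :
    kmLead p L ϖ j ((1 + y) ^ n - 1) = n • kmLead p L ϖ j y := by
  have hj0 : (0 : ℤ) ≤ (j : ℤ) := by positivity
  have hj1 : (1 : ℤ) ≤ (j : ℤ) := by exact_mod_cast hj
  have h1 : RmGe p (KmF p L) ((j : ℤ) + 1) ((1 + y) ^ n - 1 - (n : KmF p L) * y) :=
    (kml_one_add_pow_sub_lin hj0 hy n).mono (by omega)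
  have h2 : RmGe p (KmF p L) (j : ℤ) ((n : KmF p L) * y) := hy.int_mul (natCast_mem _ n)
  have e : (1 + y) ^ n - 1 = (n : KmF p L) * y + ((1 + y) ^ n - 1 - (n : KmF p L) * y) := by ring
  rw [e, kml_lead_add hϖ h2 (h1.mono (by omega)), kml_lead_of_ge hϖ h1, add_zero,
    kmc_lead_natCast_mul hϖ hy]

include hϖ in
/-- leading term of `g x` -/
theorem kmc_lead_conj (g : L ≃ₐ[ℚ_[p]] L) {j : ℕ} {x : KmF p L}
    (hx : RmGe p (KmF p L) (j : ℤ) x) :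
    kmLead p L ϖ j (kmcRes g x) =
      ((kmU p L ϖ g : (kmK p L)ˣ) : kmK p L) ^ j * kmAct p L g (kmLead p L ϖ j x) := by
  have hϖ0 : ϖ ≠ 0 := IsLfUniformizer.ne_zero p (KmF p L) hϖ
  have hϖL : algebraMap (KmF p L) L ϖ ≠ 0 :=
    (map_ne_zero_iff _ (algebraMap (KmF p L) L).injective).mpr hϖ0
  have hgϖL : g (algebraMap (KmF p L) L ϖ) ≠ 0 := (map_ne_zero_iff _ g.injective).mpr hϖL
  unfold kmLead
  rw [kmU_coe hϖ0, kmAct_kmRes, ← kmRes_pow (km_quot_mem g _),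
    ← kmRes_mul (pow_mem (km_quot_mem g _) j)
      (algEquiv_mem_lfInt p ℚ_[p] L g (kml_div_mem hϖ hx))]
  congr 1
  rw [map_div₀, map_pow, kmcRes_commutes, map_div₀, map_div₀, map_pow, map_pow, div_pow]
  field_simp

end ConjAux

section Conj

variable {p : ℕ} [Fact p.Prime]
  {L : Type} [Field L] [Algebra ℚ_[p] L] [FiniteDimensional ℚ_[p] L] [IsGalois ℚ_[p] L]

theorem km_filSet_conj {ζ : KmF p L} (hζ : IsPrimitiveRoot ζ p) (g : L ≃ₐ[ℚ_[p]] L) (j : ℕ)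
    {χ : ↥(flWildGal p L) → ZMod p} (hχ : χ ∈ kmFilSet p L ζ j) :
    tkConj (flWildGal p L) g χ ∈ kmFilSet p L ζ j := by
  obtain ⟨hadd, β, x, hgen, hx⟩ := hχ
  obtain ⟨a, c, hg, hac⟩ := kmc_exists_ac hζ g
  refine ⟨kmc_conj_add g hadd, (g β) ^ a, (1 + kmcRes g x) ^ a - 1,
    kmc_gen_conj hζ g hgen a c hg hac, ?_⟩
  exact kml_rmGe_one_add_pow_sub_one (by positivity) (hx.algEquiv (kmcRes g)) a

theorem km_iota_conj {ζ : KmF p L} (hζ : IsPrimitiveRoot ζ p) {ϖ : KmF p L}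
    (hϖ : IsLfUniformizer p (KmF p L) ϖ) (g : L ≃ₐ[ℚ_[p]] L) (j : ℕ)
    {χ : ↥(flWildGal p L) → ZMod p} (hχ : χ ∈ kmFilSet p L ζ j) (a c : ℕ)
    (hg : g (algebraMap (KmF p L) L ζ) = algebraMap (KmF p L) L ζ ^ c)
    (hac : ((a * c : ℕ) : ZMod p) = 1) :
    kmIota p L ζ ϖ j (tkConj (flWildGal p L) g χ) =
      a • (((kmU p L ϖ g : (kmK p L)ˣ) : kmK p L) ^ j * kmAct p L g (kmIota p L ζ ϖ j χ)) := by
  by_cases hr : KmInRange p L ζ j
  · obtain ⟨hadd, β, x, hgen, hx⟩ := hχ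
    have hj1 : 1 ≤ j := kml_one_le_of_inRange hζ hr.1
    have hgx : RmGe p (KmF p L) (j : ℤ) (kmcRes g x) := hx.algEquiv (kmcRes g)
    have hx' : RmGe p (KmF p L) (j : ℤ) ((1 + kmcRes g x) ^ a - 1) :=
      kml_rmGe_one_add_pow_sub_one (by positivity) hgx a
    rw [km_iota_eq hζ hϖ hr (kmc_gen_conj hζ g hgen a c hg hac) hx',
      km_iota_eq hζ hϖ hr hgen hx, kmc_lead_one_add_pow hϖ hj1 hgx, kmc_lead_conj hϖ g hx]
  · rw [kmIota_of_not_inRange hr, kmIota_of_not_inRange hr, map_zero, mul_zero, smul_zero]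

end Conj

end Fermat.Agent.S56
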