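/-
S56 / FLAT / KUM block, leaf 5 TOP (row 461, helper26): `km_fil_top` VERBATIM from `Kum/SpecFilTop.lean`.

`β^p = 1 + x`, `v(x) ≥ p v(λ)`, `λ = ζ - 1`, `(p-1) v(λ) = v(p)`.  Then `v(β - 1) ≥ v(λ)`
(`kmft_level`: with `y = β - 1`, `(1+y)^p - 1 = y^p + e`, `v(e) ≥ v(p) + v(y)`; if `v(y) < v(λ)` then
`v(x) = p v(y) < p v(λ)`).  So `γ := (β - 1)/λ` is integral and `|s γ - γ| < 1` for `s ∈ P ≤ I`; but
`s γ - γ = β (ζ^χ(s) - 1)/λ` is a unit when `χ(s) ≠ 0` (`rmk_ord_sub_one_eq`).  Hence `χ = 0`.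
-/
import Fermat.Agent.S56.Flat.Kum.Defs
import Fermat.Agent.S56.Ram.Kummer
import Fermat.Agent.S55.LocalRingOne

set_option autoImplicit false
set_option linter.unusedVariables false
set_option linter.unusedSectionVars false

noncomputable section

namespace Fermat.Agent.S56

open Fermat.Agent.S55 IsLocalRing

section Generic

variable (q : ℕ) [Fact q.Prime]
  (K : Type) [Field K] [Algebra ℚ_[q] K] [FiniteDimensional ℚ_[q] K]

theorem kmft_ord_zeta_pos {ζ : K} (hζ : IsPrimitiveRoot ζ q) : 1 ≤ lfOrd q K (ζ - 1) := by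
  have h1 := rmk_ord_zeta_sub_one q K hζ
  have h2 := lro_lfOrd_prime_pos q K
  have h3 : (q : K) = ((q : ℕ) : K) := rfl
  rw [h3] at h1
  have hq : (2 : ℤ) ≤ (q : ℤ) := by exact_mod_cast (Fact.out : q.Prime).two_le
  by_contra hlt
  rw [not_le] at hlt
  have h4 : lfOrd q K (ζ - 1) ≤ 0 := by omega
  have h5 : ((q : ℤ) - 1) * lfOrd q K (ζ - 1) ≤ 0 :=
    mul_nonpos_of_nonneg_of_nonpos (by omega) h4
  omega

/-- `(1 + y)^q = 1 + x` with `v(x) ≥ q v(ζ - 1)` forces `v(y) ≥ v(ζ - 1)` -/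
theorem kmft_level {ζ : K} (hζ : IsPrimitiveRoot ζ q) {x y : K} (hxy : (1 + y) ^ q = 1 + x)
    (hx : RmkGe q K ((q : ℤ) * lfOrd q K (ζ - 1)) x) :
    RmkGe q K (lfOrd q K (ζ - 1)) y ∧ lfOrd q K (1 + y) = 0 := by
  have hqp : q.Prime := Fact.out
  have hq2 : (2 : ℤ) ≤ (q : ℤ) := by exact_mod_cast hqp.two_le
  have hm1 := kmft_ord_zeta_pos q K hζ
  have hmq := rmk_ord_zeta_sub_one q K hζ
  set m := lfOrd q K (ζ - 1) with hm
  by_cases hx0 : x = 0
  · -- `1 + y` is a `q`-th root of unity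
    rw [hx0, add_zero] at hxy
    have hc : lfOrd q K (1 + y) = 0 := rmk_lfOrd_of_pow_eq_one q K hqp.ne_zero hxy
    refine ⟨?_, hc⟩
    by_cases hy0 : y = 0
    · rw [hy0]; exact rmkGe_zero _
    · have hne : 1 + y ≠ 1 := by
        intro h
        apply hy0
        linear_combination h
      have hη := rmk_isPrimitiveRoot_of_ne_one q K hxy hne
      have := rmk_ord_sub_one_eq q K hη hζ
      rw [add_sub_cancel_left] at this
      exact rmkGe_of_le (by rw [this])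
  · have hvx : (q : ℤ) * m ≤ lfOrd q K x := hx.le hx0
    have hvx1 : 1 ≤ lfOrd q K x := by nlinarith
    have hv1 : lfOrd q K (1 + x) = 0 := by
      have := (rmk_lfOrd_add_eq (q := q) (K := K) (x := 1) (y := x) one_ne_zero
        (by rw [lfOrd_one]; exact rmkGe_of_le (by omega))).2
      rw [this, lfOrd_one]
    have hc : lfOrd q K (1 + y) = 0 := by
      have h := lfOrd_pow q K (1 + y) q
      rw [hxy, hv1] at h
      have hq' : (q : ℤ) ≠ 0 := by omega
      rcases mul_eq_zero.mp h.symm with h' | h'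
      · exact absurd h' hq'
      · exact h'
    refine ⟨?_, hc⟩
    by_cases hy0 : y = 0
    · rw [hy0]; exact rmkGe_zero _
    have hc0 : 1 + y ≠ 0 := by
      intro h0
      rw [h0, zero_pow hqp.ne_zero] at hxy
      rw [← hxy, lfOrd_zero] at hv1
      have : x = -1 := by linear_combination -hxy
      rw [this, lfOrd_neg, lfOrd_one] at hvx1
      omega
    have hcm : 1 + y ∈ lfInt q K := by rw [mem_lfInt_iff_lfOrd q K hc0, hc]
    have hym : y ∈ lfInt q K := by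
      have := sub_mem hcm (one_mem (lfInt q K))
      rwa [add_sub_cancel_left] at this
    have hj : 0 ≤ lfOrd q K y := (mem_lfInt_iff_lfOrd q K hy0).mp hym
    obtain ⟨e, he, hexp⟩ := rmk_one_add_pow q K hj (rmkGe_of_le (le_refl (lfOrd q K y)))
    have hx' : x = y ^ q + e := by linear_combination hexp - hxy
    have hyq : lfOrd q K (y ^ q) = (q : ℤ) * lfOrd q K y := lfOrd_pow q K y q
    refine rmkGe_of_le ?_
    by_contra hlt
    rw [not_le] at hlt
    -- `q v(y) < v(q) + v(y)`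
    have h6 : (q : ℤ) * lfOrd q K y < lfOrd q K (q : K) + lfOrd q K y := by
      rw [← hmq]
      nlinarith
    have := (rmk_lfOrd_add_eq (q := q) (K := K) (x := y ^ q) (y := e) (pow_ne_zero q hy0)
      (he.mono (by rw [hyq]; omega))).2
    rw [← hx', hyq] at this
    rw [this] at hvx
    nlinarith

end Generic

section FilTop

variable (p : ℕ) [Fact p.Prime]
  (L : Type) [Field L] [Algebra ℚ_[p] L] [FiniteDimensional ℚ_[p] L] [IsGalois ℚ_[p] L]

/-- level `≥ p e'` forces `χ = 0` (`L/F` is totally ramified) -/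
theorem km_fil_top {ζ : KmF p L} (hζ : IsPrimitiveRoot ζ p) {χ : ↥(flWildGal p L) → ZMod p}
    (hχ : χ ∈ kmFilSet p L ζ (p * kmE' p L ζ)) : χ = 0 := by
  have hpp : p.Prime := Fact.out
  obtain ⟨hadd, β, x, ⟨hβ0, hβs, hβp⟩, hx⟩ := hχ
  -- the root of unity in `L`
  have hζL : IsPrimitiveRoot (algebraMap (KmF p L) L ζ) p :=
    hζ.map_of_injective (algebraMap (KmF p L) L).injective
  set ζL : L := algebraMap (KmF p L) L ζ with hζLdef
  have hlam0 : ζL - 1 ≠ 0 := sub_ne_zero.mpr (hζL.ne_one hpp.one_lt)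
  -- the orders
  have hmF : 1 ≤ lfOrd p (KmF p L) (ζ - 1) := kmft_ord_zeta_pos p (KmF p L) hζ
  have hE : ((kmE' p L ζ : ℕ) : ℤ) = lfOrd p (KmF p L) (ζ - 1) := by
    unfold kmE'
    exact Int.toNat_of_nonneg (by omega)
  have hm : lfOrd p L (ζL - 1) =
      (lfRamIdx p (KmF p L) L : ℤ) * lfOrd p (KmF p L) (ζ - 1) := by
    rw [← lfOrd_algebraMap, map_sub, map_one]
  have hxL : RmkGe p L ((p : ℤ) * lfOrd p L (ζL - 1)) (algebraMap (KmF p L) L x) := by
    have h1 := RmGe.algebraMap (q := p) (K := KmF p L) L hx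
    have h2 : (lfRamIdx p (KmF p L) L : ℤ) * (((p * kmE' p L ζ : ℕ) : ℕ) : ℤ) =
        (p : ℤ) * lfOrd p L (ζL - 1) := by
      rw [hm, ← hE]
      push_cast
      ring
    rw [h2] at h1
    exact h1
  have hxy : (1 + (β - 1)) ^ p = 1 + algebraMap (KmF p L) L x := by
    rw [add_sub_cancel, hβp]
  obtain ⟨hy, hβord'⟩ := kmft_level p L hζL hxy hxL
  have hβord : lfOrd p L β = 0 := by
    rw [add_sub_cancel] at hβord'
    exact hβord'
  -- `γ = (β - 1)/λ` is integral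
  have hγ : (β - 1) / (ζL - 1) ∈ lfInt p L := by
    by_cases hy0 : β - 1 = 0
    · rw [hy0, zero_div]
      exact zero_mem _
    · have hne : (β - 1) / (ζL - 1) ≠ 0 := div_ne_zero hy0 hlam0
      rw [mem_lfInt_iff_lfOrd p L hne, div_eq_mul_inv,
        lfOrd_mul p L hy0 (inv_ne_zero hlam0), lfOrd_inv]
      have := hy.le hy0
      omega
  funext s
  by_contra hs
  have hs' : χ s ≠ 0 := hs
  have hsI : (s : L ≃ₐ[ℚ_[p]] L) ∈ flInertiaGal p L := flWildGal_le_inertia p L s.2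
  have hlt := (mem_flInertiaGal p L _).1 hsI _ hγ
  -- `s` fixes `ζ`
  have hsζ : (s : L ≃ₐ[ℚ_[p]] L) ζL = ζL := (mem_flTameField p L _).1 ζ.2 _ s.2
  -- the root of unity `η = ζ ^ χ(s)`
  have hn0 : (χ s).val ≠ 0 := by
    rw [Ne, ZMod.val_eq_zero]
    exact hs'
  have hnlt : (χ s).val < p := ZMod.val_lt _
  have hcop : ((χ s).val).Coprime p := by
    rw [Nat.coprime_comm, hpp.coprime_iff_not_dvd]
    exact Nat.not_dvd_of_pos_of_lt (Nat.pos_of_ne_zero hn0) hnlt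
  have hη : IsPrimitiveRoot (ζL ^ (χ s).val) p := hζL.pow_of_coprime _ hcop
  have hη0 : ζL ^ (χ s).val - 1 ≠ 0 := sub_ne_zero.mpr (hη.ne_one hpp.one_lt)
  have hηord : lfOrd p L (ζL ^ (χ s).val - 1) = lfOrd p L (ζL - 1) :=
    rmk_ord_sub_one_eq p L hη hζL
  have hdiff : (s : L ≃ₐ[ℚ_[p]] L) ((β - 1) / (ζL - 1)) - (β - 1) / (ζL - 1) =
      (ζL ^ (χ s).val - 1) * β * (ζL - 1)⁻¹ := by
    rw [map_div₀, map_sub, map_sub, map_one, hsζ, hβs s]
    field_simp
    ring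
  have hne : (ζL ^ (χ s).val - 1) * β * (ζL - 1)⁻¹ ≠ 0 :=
    mul_ne_zero (mul_ne_zero hη0 hβ0) (inv_ne_zero hlam0)
  rw [hdiff, spectralNorm_lt_one_iff_lfOrd p L hne,
    lfOrd_mul p L (mul_ne_zero hη0 hβ0) (inv_ne_zero hlam0), lfOrd_mul p L hη0 hβ0, lfOrd_inv, hηord,
    hβord] at hlt
  omega

end FilTop

end Fermat.Agent.S56
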