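/-
S56 / FLAT / KUM block, leaf INERTIA (helper15): the inertia subgroup of `Gal(L/ℚ_p)` is the
Galois group over the maximal unramified subextension `K₀ = ℚ_p(z)`; Frobenius lifts;
total ramification above the fixed field of a subgroup of inertia.
Statements VERBATIM from `Kum/SpecInertia.lean` (helper29, 9435259).
-/
import Fermat.Agent.S56.Flat.Kum.Defs
import Fermat.Agent.S56.Ram.MaxUnram
import Fermat.Agent.S56.Ram.TotRam

set_option autoImplicit false
set_option linter.unusedVariables false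
set_option linter.unusedSectionVars false

noncomputable section

namespace Fermat.Agent.S56

open Fermat.Agent.S55 IsLocalRing

variable (p : ℕ) [Fact p.Prime]
  (L : Type) [Field L] [Algebra ℚ_[p] L] [FiniteDimensional ℚ_[p] L]

section Aux

/-- the residue field of `ℚ_p` has `p` elements -/
theorem kmi_lfResCard_padic : lfResCard p ℚ_[p] = p := by
  have h := lfOrd_prime_mul_lfAbsInertiaDeg p ℚ_[p]
  rw [Module.finrank_self, Nat.cast_one] at h
  have h1 : ((lfAbsInertiaDeg p ℚ_[p] : ℕ) : ℤ) = 1 :=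
    Int.eq_one_of_mul_eq_one_left (Int.natCast_nonneg _) h
  have h2 : lfAbsInertiaDeg p ℚ_[p] = 1 := by exact_mod_cast h1
  rw [lfResCard_eq, h2, pow_one]

/-- a Teichmüller generator: a primitive root of unity of order `|k_L| - 1` whose residue
generates `k_Lˣ` -/
theorem kmi_exists_gen :
    ∃ z : L, z ∈ lfInt p L ∧ IsPrimitiveRoot z (lfResCard p L - 1) ∧
      ∀ c : kmK p L, c ≠ 0 → ∃ k : ℕ, c = kmRes p L z ^ k := by
  have : Finite (ResidueField (lfInt p L)) := inferInstance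
  obtain ⟨u, hu⟩ := IsCyclic.exists_generator (α := (ResidueField (lfInt p L))ˣ)
  obtain ⟨z, hz1, hz2⟩ := lf_exists_root_of_unity_lift p L u
  have hord : orderOf u = lfResCard p L - 1 := by
    rw [orderOf_eq_card_of_forall_mem_zpowers hu, Nat.card_units]
    rfl
  refine ⟨(z : L), z.2, ?_, ?_⟩
  · rw [IsPrimitiveRoot.iff_def]
    refine ⟨?_, fun d hd => ?_⟩
    · have := congrArg (fun w : lfInt p L => (w : L)) hz1
      simpa using this
    · rw [← hord]
      apply orderOf_dvd_of_pow_eq_one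
      apply Units.ext
      rw [Units.val_pow_eq_pow_val, ← hz2, ← map_pow, Units.val_one]
      have hzd : z ^ d = 1 := Subtype.ext (by simpa using hd)
      rw [hzd, map_one]
  · intro c hc
    have hmem : Units.mk0 c hc ∈ Submonoid.powers u :=
      mem_powers_iff_mem_zpowers.mpr (hu (Units.mk0 c hc))
    obtain ⟨n, hn⟩ := hmem
    refine ⟨n, ?_⟩
    have : (u ^ n : (ResidueField (lfInt p L))ˣ) = Units.mk0 c hc := hn
    have h2 := congrArg Units.val this
    rw [Units.val_pow_eq_pow_val, Units.val_mk0, ← hz2] at h2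
    rw [kmRes_coe]
    exact h2.symm

variable {p L}

/-- `σ ∈ I ⟺ σ` acts trivially on the residue field -/
theorem kmi_mem_inertia_iff_kmAct (σ : L ≃ₐ[ℚ_[p]] L) :
    σ ∈ flInertiaGal p L ↔ ∀ c : kmK p L, kmAct p L σ c = c := by
  constructor
  · intro h c
    exact kmAct_inertia h c
  · intro h y hy
    have h1 := h (kmRes p L y)
    rw [kmAct_kmRes] at h1
    exact (kmRes_eq_iff (algEquiv_mem_lfInt p ℚ_[p] L σ hy) hy).mp h1

/-- `σ ∈ I ⟺ σ z = z` for a Teichmüller generator `z` -/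
theorem kmi_mem_inertia_iff {z : L} (hz : z ∈ lfInt p L)
    (hprim : IsPrimitiveRoot z (lfResCard p L - 1))
    (hgen : ∀ c : kmK p L, c ≠ 0 → ∃ k : ℕ, c = kmRes p L z ^ k) (σ : L ≃ₐ[ℚ_[p]] L) :
    σ ∈ flInertiaGal p L ↔ σ z = z := by
  constructor
  · intro h
    refine lu_eq_of_spectralNorm_sub_lt p L (lu_not_dvd_lfResCard_sub_one p L) ?_
      hprim.pow_eq_one (h z hz)
    rw [← map_pow, hprim.pow_eq_one, map_one]
  · intro h
    rw [kmi_mem_inertia_iff_kmAct]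
    intro c
    by_cases hc : c = 0
    · rw [hc, map_zero]
    · obtain ⟨k, rfl⟩ := hgen c hc
      rw [map_pow, kmAct_kmRes, h]

/-- a lift of the Frobenius raises residues to the `p`-th power -/
theorem kmi_frob_of_apply_gen {z : L} (hz : z ∈ lfInt p L)
    (hgen : ∀ c : kmK p L, c ≠ 0 → ∃ k : ℕ, c = kmRes p L z ^ k) (φ : L ≃ₐ[ℚ_[p]] L)
    (hφ : φ z = z ^ p) (x : L) (hx : x ∈ lfInt p L) :
    spectralNorm ℚ_[p] L (φ x - x ^ p) < 1 := by
  rw [← kmRes_eq_iff (algEquiv_mem_lfInt p ℚ_[p] L φ hx) (pow_mem hx p), ← kmAct_kmRes,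
    kmRes_pow hx]
  by_cases hc : kmRes p L x = 0
  · rw [hc, map_zero, zero_pow (Fact.out : p.Prime).ne_zero]
  · obtain ⟨k, hk⟩ := hgen _ hc
    rw [hk, map_pow, kmAct_kmRes, hφ, kmRes_pow hz, ← pow_mul, ← pow_mul, mul_comm]

end Aux

section Main

variable {p L} in
/-- `σ` fixes `ℚ_p(z)` iff `σ z = z` -/
theorem kmi_mem_fixingSubgroup_adjoin_iff (z : L) (σ : L ≃ₐ[ℚ_[p]] L) :
    σ ∈ (IntermediateField.adjoin ℚ_[p] {z}).fixingSubgroup ↔ σ z = z := by
  rw [IntermediateField.mem_fixingSubgroup_iff]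
  constructor
  · intro h
    exact h z (IntermediateField.mem_adjoin_simple_self ℚ_[p] z)
  · intro h x hx
    have hle : IntermediateField.adjoin ℚ_[p] {z} ≤
        IntermediateField.fixedField (Subgroup.zpowers σ) := by
      rw [IntermediateField.adjoin_simple_le_iff, IntermediateField.mem_fixedField_iff]
      intro τ hτ
      obtain ⟨k, rfl⟩ := Subgroup.mem_zpowers_iff.mp hτ
      have h1 : MulAction.toPermHom (L ≃ₐ[ℚ_[p]] L) L σ z = z := h
      have h2 : (MulAction.toPermHom (L ≃ₐ[ℚ_[p]] L) L σ ^ k) z = z :=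
        Equiv.Perm.zpow_apply_eq_self_of_apply_eq_self h1 k
      rw [← map_zpow] at h2
      exact h2
    have h3 := hle hx
    rw [IntermediateField.mem_fixedField_iff] at h3
    exact h3 σ (Subgroup.mem_zpowers σ)

variable {p L} in
/-- the inertia group is the Galois group over `ℚ_p(z)` -/
theorem kmi_inertia_eq_fixingSubgroup {z : L} (hz : z ∈ lfInt p L)
    (hprim : IsPrimitiveRoot z (lfResCard p L - 1))
    (hgen : ∀ c : kmK p L, c ≠ 0 → ∃ k : ℕ, c = kmRes p L z ^ k) :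
    flInertiaGal p L = (IntermediateField.adjoin ℚ_[p] {z}).fixingSubgroup := by
  ext σ
  rw [kmi_mem_inertia_iff hz hprim hgen, kmi_mem_fixingSubgroup_adjoin_iff]

variable [IsGalois ℚ_[p] L]

/-- a Frobenius lift: `φ x ≡ x ^ p mod 𝔪_L`, and `G = ⟨φ⟩ I` -/
theorem km_exists_frob :
    ∃ φ : L ≃ₐ[ℚ_[p]] L,
      (∀ x : L, x ∈ lfInt p L → spectralNorm ℚ_[p] L (φ x - x ^ p) < 1) ∧
      ∀ g : L ≃ₐ[ℚ_[p]] L, ∃ n : ℕ, g * φ ^ n ∈ flInertiaGal p L := by
  obtain ⟨z, hz, hprim, hgen⟩ := kmi_exists_gen p L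
  have hfd := rm_finiteDimensional_intermediate p ℚ_[p] L (IntermediateField.adjoin ℚ_[p] {z})
  obtain ⟨hunr, htr⟩ := rmmu_maxUnram_of_eq p ℚ_[p] L _ z hprim rfl
  have hgal : IsGalois ℚ_[p] ↥(IntermediateField.adjoin ℚ_[p] {z}) :=
    LfUnramified.isGalois p ℚ_[p] _ hunr
  have hnormal : Normal ℚ_[p] ↥(IntermediateField.adjoin ℚ_[p] {z}) := inferInstance
  have hφ₀ := isLfFrob_lfFrob p ℚ_[p] ↥(IntermediateField.adjoin ℚ_[p] {z}) hunr
  have hzmem : z ∈ IntermediateField.adjoin ℚ_[p] {z} :=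
    IntermediateField.mem_adjoin_simple_self ℚ_[p] z
  have hN := lu_not_dvd_lfResCard_sub_one p L
  have hz1 : (⟨z, hzmem⟩ : ↥(IntermediateField.adjoin ℚ_[p] {z})) ^ (lfResCard p L - 1) = 1 :=
    Subtype.ext hprim.pow_eq_one
  have hφ₀z := lu_frob_apply_root p ℚ_[p] ↥(IntermediateField.adjoin ℚ_[p] {z}) hφ₀ hN hz1
  rw [kmi_lfResCard_padic] at hφ₀z
  obtain ⟨φ, hφ⟩ := AlgEquiv.restrictNormalHom_surjective (F := ℚ_[p])
    (K₁ := ↥(IntermediateField.adjoin ℚ_[p] {z})) L (lfFrob p ℚ_[p] _)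
  -- the restriction of an automorphism to `K₀`, evaluated at `z`
  have hres : ∀ τ : L ≃ₐ[ℚ_[p]] L,
      ((AlgEquiv.restrictNormalHom ↥(IntermediateField.adjoin ℚ_[p] {z}) τ ⟨z, hzmem⟩ :
        ↥(IntermediateField.adjoin ℚ_[p] {z})) : L) = τ z := fun τ =>
    AlgEquiv.restrictNormal_commutes τ ↥(IntermediateField.adjoin ℚ_[p] {z}) ⟨z, hzmem⟩
  have hφz : φ z = z ^ p := by
    rw [← hres φ, hφ, hφ₀z]
    rfl
  refine ⟨φ, kmi_frob_of_apply_gen hz hgen φ hφz, fun g => ?_⟩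
  have hfin : Finite (↥(IntermediateField.adjoin ℚ_[p] {z}) ≃ₐ[ℚ_[p]]
      ↥(IntermediateField.adjoin ℚ_[p] {z})) := inferInstance
  have hmem : (AlgEquiv.restrictNormalHom ↥(IntermediateField.adjoin ℚ_[p] {z}) g)⁻¹ ∈
      Submonoid.powers (lfFrob p ℚ_[p] ↥(IntermediateField.adjoin ℚ_[p] {z})) :=
    mem_powers_iff_mem_zpowers.mpr (mem_zpowers_lfFrob p ℚ_[p] _ hunr _)
  obtain ⟨n, hn⟩ := hmem
  refine ⟨n, ?_⟩
  rw [kmi_mem_inertia_iff hz hprim hgen, ← hres (g * φ ^ n), map_mul, map_pow, hφ]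
  have hn' : lfFrob p ℚ_[p] ↥(IntermediateField.adjoin ℚ_[p] {z}) ^ n =
      (AlgEquiv.restrictNormalHom ↥(IntermediateField.adjoin ℚ_[p] {z}) g)⁻¹ := hn
  rw [hn', mul_inv_cancel]
  rfl

/-- `|I| = e(L/ℚ_p)` -/
theorem km_card_inertia : Nat.card ↥(flInertiaGal p L) = lfRamIdx p ℚ_[p] L := by
  obtain ⟨z, hz, hprim, hgen⟩ := kmi_exists_gen p L
  have hfd := rm_finiteDimensional_intermediate p ℚ_[p] L (IntermediateField.adjoin ℚ_[p] {z})
  obtain ⟨hunr, htr⟩ := rmmu_maxUnram_of_eq p ℚ_[p] L _ z hprim rfl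
  rw [kmi_inertia_eq_fixingSubgroup hz hprim hgen, IsGalois.card_fixingSubgroup_eq_finrank,
    lfRamIdx_tower p ℚ_[p] ↥(IntermediateField.adjoin ℚ_[p] {z}) L,
    show lfRamIdx p ℚ_[p] ↥(IntermediateField.adjoin ℚ_[p] {z}) = 1 from hunr, one_mul,
    rm_ramIdx_eq_finrank p _ L htr]

/-- `L/E` is totally ramified as soon as `Gal(L/E) ≤ I` -/
theorem km_totRam_of_fixingSubgroup_le (E : IntermediateField ℚ_[p] L)
    (hE : E.fixingSubgroup ≤ flInertiaGal p L) : LfTotRam p ↥E L := by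
  obtain ⟨z, hz, hprim, hgen⟩ := kmi_exists_gen p L
  have hfd := rm_finiteDimensional_intermediate p ℚ_[p] L (IntermediateField.adjoin ℚ_[p] {z})
  obtain ⟨hunr, htr⟩ := rmmu_maxUnram_of_eq p ℚ_[p] L _ z hprim rfl
  have hzE : z ∈ E := by
    rw [← IsGalois.fixedField_fixingSubgroup E, IntermediateField.mem_fixedField_iff]
    intro σ hσ
    exact (kmi_mem_inertia_iff hz hprim hgen σ).mp (hE hσ)
  have hle : IntermediateField.adjoin ℚ_[p] {z} ≤ E :=
    IntermediateField.adjoin_simple_le_iff.mpr hzE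
  let _ : Algebra ↥(IntermediateField.adjoin ℚ_[p] {z}) ↥E :=
    (IntermediateField.inclusion hle).toRingHom.toAlgebra
  have hst1 : IsScalarTower ℚ_[p] ↥(IntermediateField.adjoin ℚ_[p] {z}) ↥E :=
    IsScalarTower.of_algebraMap_eq (fun _ => rfl)
  have hst2 : IsScalarTower ↥(IntermediateField.adjoin ℚ_[p] {z}) ↥E L :=
    IsScalarTower.of_algebraMap_eq (fun _ => rfl)
  exact (rm_totRam_tower p ↥(IntermediateField.adjoin ℚ_[p] {z}) L ↥E htr).2

end Main

end Fermat.Agent.S56
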