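/-
S56 / FLAT / KUM block, leaf 4 LOW (helper17): every additive character of the wild inertia `P`
has level `≥ e = (p - 1) e'`.  Hilbert 90 for `L/F` (`F = L^P`) gives a Kummer generator `β`,
RAM `rm_top` normalises `β ^ p` to `1 mod p` up to `p`-th powers of `F`.
Statement `km_fil_low` VERBATIM from `Kum/SpecLow.lean`.
-/
import Fermat.Agent.S56.Flat.Kum.Level
import Fermat.Agent.S56.Ram.Top

set_option autoImplicit false
set_option linter.unusedVariables false
set_option linter.unusedSectionVars false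

noncomputable section

namespace Fermat.Agent.S56

open Fermat.Agent.S55 IsLocalRing

variable (p : ℕ) [Fact p.Prime]
  (L : Type) [Field L] [Algebra ℚ_[p] L] [FiniteDimensional ℚ_[p] L] [IsGalois ℚ_[p] L]

section Low

/-- an `F`-automorphism of `L` (`F = L^P`), seen over `ℚ_p`, lies in `P` -/
theorem kmlo_restrict_mem (σ : L ≃ₐ[KmF p L] L) :
    σ.restrictScalars ℚ_[p] ∈ flWildGal p L := by
  have h1 : σ.restrictScalars ℚ_[p] ∈ (flTameField p L).fixingSubgroup := by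
    rw [IntermediateField.mem_fixingSubgroup_iff]
    intro x hx
    exact σ.commutes ⟨x, hx⟩
  rwa [IntermediateField.fixingSubgroup_fixedField] at h1

/-- an element of `P` as an `F`-automorphism of `L` -/
def kmloLift (s : ↥(flWildGal p L)) : L ≃ₐ[KmF p L] L :=
  { (s : L ≃ₐ[ℚ_[p]] L).toRingEquiv with
    commutes' := fun x => x.2 s }

theorem kmloLift_apply (s : ↥(flWildGal p L)) (y : L) :
    kmloLift p L s y = (s : L ≃ₐ[ℚ_[p]] L) y := rfl

/-- **Hilbert 90** for `L/F`: every additive character of `P` has a Kummer generator. -/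
theorem kmlo_exists_beta {ζ : KmF p L} (hζ : IsPrimitiveRoot ζ p)
    (χ : ↥(flWildGal p L) → ZMod p)
    (hχ : ∀ s t : ↥(flWildGal p L), χ (s * t) = χ s + χ t) :
    ∃ β : L, β ≠ 0 ∧ ∀ s : ↥(flWildGal p L),
      (s : L ≃ₐ[ℚ_[p]] L) β = algebraMap (KmF p L) L ζ ^ (χ s).val * β := by
  have hp : p.Prime := Fact.out
  have hζ0 : algebraMap (KmF p L) L ζ ≠ 0 :=
    (map_ne_zero_iff _ (algebraMap (KmF p L) L).injective).mpr (hζ.ne_zero hp.ne_zero)
  have hζp : algebraMap (KmF p L) L ζ ^ p = 1 := by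
    rw [← map_pow, hζ.pow_eq_one, map_one]
  let f : (L ≃ₐ[KmF p L] L) → Lˣ := fun σ =>
    Units.mk0 (algebraMap (KmF p L) L ζ ^ (χ ⟨σ.restrictScalars ℚ_[p], kmlo_restrict_mem p L σ⟩).val)
      (pow_ne_zero _ hζ0)
  have hf : groupCohomology.IsMulCocycle₁ f := by
    intro σ τ
    have e1 : (⟨(σ * τ).restrictScalars ℚ_[p], kmlo_restrict_mem p L (σ * τ)⟩ : ↥(flWildGal p L)) =
        ⟨σ.restrictScalars ℚ_[p], kmlo_restrict_mem p L σ⟩ *
          ⟨τ.restrictScalars ℚ_[p], kmlo_restrict_mem p L τ⟩ := rfl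
    apply Units.ext
    rw [Units.val_mul, AlgEquiv.smul_units_def]
    simp only [f, Units.val_mk0, Units.coe_map, MonoidHom.coe_coe]
    rw [e1, hχ, kml_pow_val_add hζp, map_pow, σ.commutes, mul_comm]
  obtain ⟨β, hβ⟩ := groupCohomology.isMulCoboundary₁_of_isMulCocycle₁_of_aut_to_units f hf
  refine ⟨(β : L), β.ne_zero, fun s => ?_⟩
  have h1 := hβ (kmloLift p L s)
  have e2 : (⟨(kmloLift p L s).restrictScalars ℚ_[p], kmlo_restrict_mem p L (kmloLift p L s)⟩ :
      ↥(flWildGal p L)) = s := Subtype.ext (AlgEquiv.ext fun y => rfl)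
  have h2 : ((kmloLift p L s • β / β : Lˣ) : L) = ((f (kmloLift p L s) : Lˣ) : L) :=
    congrArg Units.val h1
  rw [Units.val_div_eq_div_val, AlgEquiv.smul_units_def] at h2
  simp only [f, Units.val_mk0, Units.coe_map, MonoidHom.coe_coe] at h2
  rw [e2, kmloLift_apply] at h2
  rw [div_eq_iff β.ne_zero] at h2
  exact h2

/-- every additive character has level `≥ e = (p - 1) e'` -/
theorem km_fil_low (hp2 : p ≠ 2) (hL : FlBounded p L) (htame : LfTame p ℚ_[p] (KmF p L))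
    {ζ : KmF p L} (hζ : IsPrimitiveRoot ζ p) (χ : ↥(flWildGal p L) → ZMod p)
    (hχ : ∀ s t : ↥(flWildGal p L), χ (s * t) = χ s + χ t) :
    χ ∈ kmFilSet p L ζ ((p - 1) * kmE' p L ζ) := by
  have hp : p.Prime := Fact.out
  obtain ⟨β, hβ0, hβ⟩ := kmlo_exists_beta p L hζ χ hχ
  have hζp : algebraMap (KmF p L) L ζ ^ p = 1 := by
    rw [← map_pow, hζ.pow_eq_one, map_one]
  -- `b = β ^ p ∈ F`
  have hmem : β ^ p ∈ flTameField p L := by
    rw [mem_flTameField]
    intro σ hσ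
    have := hβ ⟨σ, hσ⟩
    simp only at this
    rw [map_pow, this, mul_pow, ← pow_mul, mul_comm _ p, pow_mul, hζp, one_pow, one_mul]
  have hb0 : (⟨β ^ p, hmem⟩ : KmF p L) ≠ 0 := by
    intro h0
    have : β ^ p = 0 := congrArg Subtype.val h0
    exact pow_ne_zero _ hβ0 this
  have hgen : KmGen p L ζ χ β ((⟨β ^ p, hmem⟩ : KmF p L) - 1) := by
    refine ⟨hβ0, hβ, ?_⟩
    rw [map_sub, map_one]
    change β ^ p = 1 + (β ^ p - 1)
    ring
  obtain ⟨c, hc0, hc⟩ := rm_top p L hp2 hL (KmF p L) htame hζ ⟨β ^ p, hmem⟩ hb0 β rfl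
  have hgen' := kml_gen_mul_base hgen hc0
  have e1 : (1 + ((⟨β ^ p, hmem⟩ : KmF p L) - 1)) * c ^ p - 1 =
      (⟨β ^ p, hmem⟩ : KmF p L) * c ^ p - 1 := by ring
  rw [e1] at hgen'
  refine ⟨hχ, β * algebraMap (KmF p L) L c, (⟨β ^ p, hmem⟩ : KmF p L) * c ^ p - 1, hgen', ?_⟩
  rcases hc with hc | hc
  · left
    rw [hc, sub_self]
  · right
    obtain ⟨-, -, h3⟩ := kml_e' hζ
    have e2 : (((p - 1) * kmE' p L ζ : ℕ) : ℤ) = ((p : ℤ) - 1) * ((kmE' p L ζ : ℕ) : ℤ) := by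
      rw [Nat.cast_mul, Nat.cast_sub hp.one_le, Nat.cast_one]
    rw [e2, h3]
    exact_mod_cast hc

end Low

end Fermat.Agent.S56
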