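/-
S56 / FLAT / KUM block, leaf 2 WILD (helper29): wild inertia is a `p`-group; the tame character
of `L`; `p ∤ [I : P]`.  Statements VERBATIM from `Kum/SpecWild.lean`.
-/
import Fermat.Agent.S56.Flat.Kum.Defs
import Fermat.Agent.S56.Ram.Tame

set_option autoImplicit false
set_option linter.unusedVariables false
set_option linter.unusedSectionVars false
set_option linter.style.haveILetI false

noncomputable section

namespace Fermat.Agent.S56

open Fermat.Agent.S55 IsLocalRing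

variable (p : ℕ) [Fact p.Prime]
  (L : Type) [Field L] [Algebra ℚ_[p] L] [FiniteDimensional ℚ_[p] L] [IsGalois ℚ_[p] L]

section WildAux

variable {p L}

theorem kmw_norm_natCast_le (k : ℕ) : spectralNorm ℚ_[p] L (k : L) ≤ 1 :=
  (mem_lfInt_iff p L _).mp (natCast_mem _ k)

theorem kmw_norm_natCast_eq {n : ℕ} (hn : ¬ p ∣ n) : spectralNorm ℚ_[p] L (n : L) = 1 := by
  have hcz : CharZero L :=
    charZero_of_injective_algebraMap (FaithfulSMul.algebraMap_injective ℚ_[p] L)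
  have hn0 : n ≠ 0 := by rintro rfl; exact hn (dvd_zero p)
  have hnL : (n : L) ≠ 0 := Nat.cast_ne_zero.mpr hn0
  refine le_antisymm (kmw_norm_natCast_le n) ?_
  by_contra hlt
  rw [not_le, spectralNorm_lt_one_iff_lfOrd p L hnL, rmtt_lfOrd_natCast p L n hn] at hlt
  exact lt_irrefl _ hlt

theorem kmw_nonarch (x y : L) :
    spectralNorm ℚ_[p] L (x + y) ≤ max (spectralNorm ℚ_[p] L x) (spectralNorm ℚ_[p] L y) :=
  isNonarchimedean_spectralNorm (K := ℚ_[p]) (L := L) x y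

/-- for `σ ∈ P`: `σ^k z - z ≡ k (σ z - z)` modulo elements of norm `< |σ z - z|` -/
theorem kmw_pow_sub {σ : L ≃ₐ[ℚ_[p]] L} (hσ : σ ∈ flWildGal p L) {z : L} (hsz : σ z ≠ z) (k : ℕ) :
    spectralNorm ℚ_[p] L ((σ ^ k) z - z - (k : L) * (σ z - z)) <
      spectralNorm ℚ_[p] L (σ z - z) := by
  have hδ : σ z - z ≠ 0 := sub_ne_zero.mpr hsz
  have hpos : 0 < spectralNorm ℚ_[p] L (σ z - z) := lfv_spectralNorm_pos p L hδ
  induction k with
  | zero =>
    simp only [pow_zero, AlgEquiv.one_apply, sub_self, Nat.cast_zero, zero_mul, spectralNorm_zero]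
    exact hpos
  | succ k ih =>
    have e : (σ ^ (k + 1)) z - z - ((k + 1 : ℕ) : L) * (σ z - z)
        = (k : L) * (σ (σ z - z) - (σ z - z)) + σ ((σ ^ k) z - z - (k : L) * (σ z - z)) := by
      have e1 : (σ ^ (k + 1)) z = σ ((σ ^ k) z) := by
        rw [pow_succ']; rfl
      rw [e1]
      simp only [map_sub, map_mul, map_natCast, Nat.cast_add, Nat.cast_one]
      ring
    rw [e]
    refine lt_of_le_of_lt (kmw_nonarch _ _) (max_lt ?_ ?_)
    · rw [lu_spectralNorm_mul]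
      calc spectralNorm ℚ_[p] L (k : L) * spectralNorm ℚ_[p] L (σ (σ z - z) - (σ z - z))
          ≤ 1 * spectralNorm ℚ_[p] L (σ (σ z - z) - (σ z - z)) :=
            mul_le_mul_of_nonneg_right (kmw_norm_natCast_le k) (spectralNorm_nonneg _)
        _ = spectralNorm ℚ_[p] L (σ (σ z - z) - (σ z - z)) := one_mul _
        _ < spectralNorm ℚ_[p] L (σ z - z) := hσ _ hδ
    · rw [spectralNorm_algEquiv p ℚ_[p] L σ]
      exact ih

/-- for `σ ∈ P` and `p ∤ n`, `σ^n` moves every element moved by `σ` -/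
theorem kmw_pow_apply_ne {σ : L ≃ₐ[ℚ_[p]] L} (hσ : σ ∈ flWildGal p L) {z : L} (hsz : σ z ≠ z)
    {n : ℕ} (hn : ¬ p ∣ n) : (σ ^ n) z ≠ z := by
  intro hfix
  have h := kmw_pow_sub hσ hsz n
  rw [hfix, sub_self, zero_sub, spectralNorm_neg (Algebra.IsAlgebraic.isAlgebraic _),
    lu_spectralNorm_mul, kmw_norm_natCast_eq hn, one_mul] at h
  exact lt_irrefl _ h

/-- units: `kmRes (a ^ n) = kmRes a ^ n` for integer exponents -/
theorem kmw_res_zpow {a : L} (ha : a ∈ lfInt p L) (ha' : a⁻¹ ∈ lfInt p L) (ha0 : a ≠ 0) (n : ℤ) :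
    kmRes p L (a ^ n) = kmRes p L a ^ n := by
  have hinv : kmRes p L a⁻¹ = (kmRes p L a)⁻¹ := by
    have h1 : kmRes p L a * kmRes p L a⁻¹ = 1 := by
      rw [← kmRes_mul ha ha', mul_inv_cancel₀ ha0, kmRes_one]
    exact eq_inv_of_mul_eq_one_right h1
  cases n with
  | ofNat m => simpa using kmRes_pow ha m
  | negSucc m =>
    rw [zpow_negSucc, zpow_negSucc, ← inv_pow, kmRes_pow ha' (m + 1), hinv, inv_pow]

end WildAux

section Wild

/-- wild inertia is a `p`-group -/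
theorem km_wild_isPGroup : IsPGroup p ↥(flWildGal p L) := by
  have hp : p.Prime := Fact.out
  rintro ⟨σ, hσ⟩
  have hfin : Finite (L ≃ₐ[ℚ_[p]] L) := inferInstance
  have hord : 0 < orderOf σ := orderOf_pos σ
  obtain ⟨k, m, hm, hkm⟩ := Nat.exists_eq_pow_mul_and_not_dvd hord.ne' p hp.ne_one
  refine ⟨k, Subtype.ext ?_⟩
  change σ ^ p ^ k = 1
  by_contra hne
  obtain ⟨z, hz⟩ : ∃ z : L, (σ ^ p ^ k) z ≠ z := by
    by_contra hall
    simp only [not_exists, ne_eq, not_not] at hall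
    exact hne (AlgEquiv.ext hall)
  have hτ : σ ^ p ^ k ∈ flWildGal p L := Subgroup.pow_mem _ hσ _
  have h1 := kmw_pow_apply_ne hτ hz hm
  apply h1
  rw [← pow_mul, ← hkm, pow_orderOf_eq_one]
  rfl

/-- inertia acts on `𝔪^n/𝔪^(n+1)` through the `n`-th power of the tame character -/
theorem km_res_quot_of_inertia {ϖ : L} (hϖ : IsLfUniformizer p L ϖ) {σ : L ≃ₐ[ℚ_[p]] L}
    (hσ : σ ∈ flInertiaGal p L) {y : L} (hy : y ≠ 0) :
    kmRes p L (σ y / y) = kmRes p L (σ ϖ / ϖ) ^ (lfOrd p L y) := by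
  have hϖ0 : ϖ ≠ 0 := IsLfUniformizer.ne_zero p L hϖ
  have hσϖ0 : σ ϖ ≠ 0 := (map_ne_zero_iff _ σ.injective).mpr hϖ0
  obtain ⟨u, hu, hyu⟩ := exists_unit_mul_zpow p L hϖ hy
  rw [mem_lfUnits_iff] at hu
  have hu0 : (u : L) ≠ 0 := u.ne_zero
  have huint : (u : L) ∈ lfInt p L := (mem_lfInt_iff_lfOrd p L hu0).mpr (le_of_eq hu.symm)
  have huinv : (u : L)⁻¹ ∈ lfInt p L := by
    rw [mem_lfInt_iff_lfOrd p L (inv_ne_zero hu0), lfOrd_inv, hu]; simp
  have hunorm : spectralNorm ℚ_[p] L (u : L) = 1 := by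
    refine le_antisymm huint ?_
    by_contra hlt
    rw [not_le, spectralNorm_lt_one_iff_lfOrd p L hu0, hu] at hlt
    exact lt_irrefl _ hlt
  -- `σ u / u ≡ 1`
  have h1 : kmRes p L (σ (u : L) / (u : L)) = 1 := by
    rw [kmRes_eq_one_iff (km_quot_mem σ _)]
    have e : σ (u : L) / (u : L) - 1 = (σ (u : L) - (u : L)) * (u : L)⁻¹ := by
      field_simp
    rw [e, lu_spectralNorm_mul]
    have hinvnorm : spectralNorm ℚ_[p] L (u : L)⁻¹ = 1 := by
      have := lu_spectralNorm_mul p L (u : L) (u : L)⁻¹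
      rw [mul_inv_cancel₀ hu0, spectralNorm_one, hunorm, one_mul] at this
      exact this.symm
    rw [hinvnorm, mul_one]
    exact hσ _ huint
  have hq : σ ϖ / ϖ ≠ 0 := div_ne_zero hσϖ0 hϖ0
  have hqinv : (σ ϖ / ϖ)⁻¹ ∈ lfInt p L := by
    have := km_quot_mem (σ⁻¹) (σ ϖ)
    rwa [AlgEquiv.aut_inv, AlgEquiv.symm_apply_apply, ← inv_div] at this
  have e2 : σ y / y = (σ (u : L) / (u : L)) * (σ ϖ / ϖ) ^ (lfOrd p L y) := by
    conv_lhs => rw [hyu]
    rw [map_mul, map_zpow₀, div_zpow]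
    field_simp
  have hzint : (σ ϖ / ϖ) ^ (lfOrd p L y) ∈ lfInt p L := by
    rcases le_or_gt 0 (lfOrd p L y) with hn | hn
    · obtain ⟨m, hm⟩ := Int.eq_ofNat_of_zero_le hn
      rw [hm, zpow_natCast]
      exact pow_mem (km_quot_mem σ ϖ) m
    · obtain ⟨m, hm⟩ := Int.exists_eq_neg_ofNat hn.le
      rw [hm, zpow_neg, zpow_natCast, ← inv_pow]
      exact pow_mem hqinv m
  rw [e2, kmRes_mul (km_quot_mem σ _) hzint, h1, one_mul,
    kmw_res_zpow (km_quot_mem σ ϖ) hqinv hq]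

/-- wild inertia is the kernel of the tame character -/
theorem km_mem_wild_iff {ϖ : L} (hϖ : IsLfUniformizer p L ϖ) {σ : L ≃ₐ[ℚ_[p]] L}
    (hσ : σ ∈ flInertiaGal p L) : σ ∈ flWildGal p L ↔ kmRes p L (σ ϖ / ϖ) = 1 := by
  have hϖ0 : ϖ ≠ 0 := IsLfUniformizer.ne_zero p L hϖ
  have hquot : ∀ y : L, y ≠ 0 →
      (spectralNorm ℚ_[p] L (σ y / y - 1) < 1 ↔
        spectralNorm ℚ_[p] L (σ y - y) < spectralNorm ℚ_[p] L y) := by
    intro y hy
    have hpos : 0 < spectralNorm ℚ_[p] L y := lfv_spectralNorm_pos p L hy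
    have e : σ y - y = (σ y / y - 1) * y := by field_simp
    rw [e, lu_spectralNorm_mul]
    constructor
    · intro h
      calc spectralNorm ℚ_[p] L (σ y / y - 1) * spectralNorm ℚ_[p] L y
          < 1 * spectralNorm ℚ_[p] L y := mul_lt_mul_of_pos_right h hpos
        _ = spectralNorm ℚ_[p] L y := one_mul _
    · intro h
      by_contra hge
      rw [not_lt] at hge
      have := mul_le_mul_of_nonneg_right hge hpos.le
      rw [one_mul] at this
      exact absurd h (not_lt.mpr this)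
  constructor
  · intro h
    rw [kmRes_eq_one_iff (km_quot_mem σ ϖ), hquot ϖ hϖ0]
    exact h ϖ hϖ0
  · intro h y hy
    rw [← hquot y hy, ← kmRes_eq_one_iff (km_quot_mem σ y), km_res_quot_of_inertia p L hϖ hσ hy, h,
      one_zpow]

/-- the tame character is multiplicative on inertia -/
theorem kmw_theta_mul {ϖ : L} (hϖ0 : ϖ ≠ 0) {σ : L ≃ₐ[ℚ_[p]] L}
    (hσ : σ ∈ flInertiaGal p L) (τ : L ≃ₐ[ℚ_[p]] L) :
    kmRes p L ((σ * τ) ϖ / ϖ) = kmRes p L (σ ϖ / ϖ) * kmRes p L (τ ϖ / ϖ) := by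
  have hσϖ0 : σ ϖ ≠ 0 := (map_ne_zero_iff _ σ.injective).mpr hϖ0
  have e : (σ * τ) ϖ / ϖ = σ ϖ / ϖ * σ (τ ϖ / ϖ) := by
    rw [AlgEquiv.mul_apply, map_div₀]
    field_simp
  rw [e, kmRes_mul (km_quot_mem σ ϖ) (algEquiv_mem_lfInt p ℚ_[p] L σ (km_quot_mem τ ϖ)),
    kmRes_inertia hσ (km_quot_mem τ ϖ)]

theorem kmw_theta_pow {ϖ : L} (hϖ0 : ϖ ≠ 0) {σ : L ≃ₐ[ℚ_[p]] L}
    (hσ : σ ∈ flInertiaGal p L) (n : ℕ) :
    kmRes p L ((σ ^ n) ϖ / ϖ) = kmRes p L (σ ϖ / ϖ) ^ n := by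
  induction n with
  | zero => rw [pow_zero, pow_zero, AlgEquiv.one_apply, div_self hϖ0, kmRes_one]
  | succ n ih => rw [pow_succ', kmw_theta_mul p L hϖ0 hσ, ih, pow_succ']

/-- `[I : P]` is prime to `p` -/
theorem km_wild_relIndex : ¬ p ∣ (flWildGal p L).relIndex (flInertiaGal p L) := by
  have hp : p.Prime := Fact.out
  obtain ⟨ϖ, hϖ⟩ := exists_isLfUniformizer p L
  have hϖ0 : ϖ ≠ 0 := IsLfUniformizer.ne_zero p L hϖ
  letI : Fintype (kmK p L) := Fintype.ofFinite _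
  set N := Fintype.card (kmK p L) - 1 with hN
  -- `σ ^ N ∈ P` for `σ ∈ I`
  have hpow : ∀ σ ∈ flInertiaGal p L, σ ^ N ∈ flWildGal p L := by
    intro σ hσ
    rw [km_mem_wild_iff p L hϖ (Subgroup.pow_mem _ hσ N), kmw_theta_pow p L hϖ0 hσ]
    exact FiniteField.pow_card_sub_one_eq_one _ (km_quot_res_ne_zero σ hϖ0)
  intro hdvd
  unfold Subgroup.relIndex at hdvd
  have hnorm : ((flWildGal p L).subgroupOf (flInertiaGal p L)).Normal := Subgroup.normal_subgroupOf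
  rw [Subgroup.index_eq_card] at hdvd
  obtain ⟨x, hx⟩ := exists_prime_orderOf_dvd_card' p hdvd
  obtain ⟨g, rfl⟩ := QuotientGroup.mk_surjective x
  have h1 : ((g : ↥(flInertiaGal p L) ⧸ (flWildGal p L).subgroupOf (flInertiaGal p L))) ^ N = 1 := by
    rw [← QuotientGroup.mk_pow, QuotientGroup.eq_one_iff, Subgroup.mem_subgroupOf]
    exact hpow g.1 g.2
  have h2 : p ∣ N := by
    rw [← hx]
    exact orderOf_dvd_of_pow_eq_one h1
  -- but `p ∣ card k`
  have h3 : p ∣ Fintype.card (kmK p L) := by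
    obtain ⟨n, hn⟩ := FiniteField.card (kmK p L) p
    rw [hn.2]
    exact dvd_pow_self p n.ne_zero
  have h4 : 0 < Fintype.card (kmK p L) := Fintype.card_pos
  have h5 : p ∣ 1 := by
    have : Fintype.card (kmK p L) = N + 1 := by omega
    rw [this] at h3
    exact (Nat.dvd_add_right h2).mp h3
  exact hp.one_lt.ne' (Nat.dvd_one.mp h5)

end Wild

end Fermat.Agent.S56
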