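/-
S56 / FLAT / KUM block (sub-architect + integrator helper29): MAIN.
`fl_exists_tameKummerData` (VERBATIM the stub of `Flat/Spec.lean`, helper25): for `L/ℚ_p` finite Galois
with `ζ_p ∈ L` satisfying Fontaine's bound (`FlBounded`), `Gal(L/ℚ_p)` carries a `TameKummerData`
with `ω` the mod `p` cyclotomic character and `I` the inertia subgroup.  Sorry-free.

NOTATION. `G = Gal(L/ℚ_p)`, `I = flInertiaGal p L`, `P = flWildGal p L` (wild inertia), `F = KmF p L = L^P`,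
`k = kmK p L` the residue field of `L`, `res = kmRes p L`, `ζ ∈ F` a primitive `p`-th root of unity,
`e' = kmE' p L ζ = v_F(ζ-1)`, `e(F/ℚ_p) = (p-1) e'`, `ϖ ∈ F` a uniformizer of `F` (`Kum/Defs.lean`).

LEAVES
 1 INERTIA `Kum/Inertia.lean` (helper15): Frobenius lift, `|I| = e(L/ℚ_p)`, `L/E` totally ramified for `E ⊇ L^I`
 2 WILD    `Kum/Wild.lean`    (helper29): `P` is a `p`-group; the tame character of `L`; `p ∤ [I : P]`
 3 TAME    `Kum/Tame.lean`    (helper15): `F/ℚ_p` tame, `ζ_p ∈ F`, `|I| = e(F/ℚ_p) |P|`, `u = 1 ⟺ σ ∈ P`, `u^e' = ω`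
 4 LOW     `Kum/Low.lean`     (helper17): Hilbert 90 + RAM `rm_top`: every character has level `≥ e`
 5 TOP     `Kum/FilTop.lean`  (helper26): level `≥ p e'` forces `χ = 0`
 6 LEVEL   `Kum/Level.lean`   (helper29): `kmFilSet` is a subgroup; leading terms; raising levels `p ∣ j`
 7 CONJ    `Kum/Conj.lean`    (helper29): conjugation `b_{gχ} = g(b_χ)^(ω(g)⁻¹)`
-/
import Fermat.Agent.S56.Flat.Kum.Inertia
import Fermat.Agent.S56.Flat.Kum.Wild
import Fermat.Agent.S56.Flat.Kum.Tame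
import Fermat.Agent.S56.Flat.Kum.Low
import Fermat.Agent.S56.Flat.Kum.FilTop
import Fermat.Agent.S56.Flat.Kum.Level
import Fermat.Agent.S56.Flat.Kum.Conj

set_option autoImplicit false
set_option linter.unusedVariables false
set_option linter.unusedSectionVars false

noncomputable section

namespace Fermat.Agent.S56

open Fermat.Agent.S55 IsLocalRing

variable (p : ℕ) [Fact p.Prime]
  (L : Type) [Field L] [Algebra ℚ_[p] L] [FiniteDimensional ℚ_[p] L] [IsGalois ℚ_[p] L]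

/-! ## ASSEMBLY -/

section Assembly

/-- the subgroup `Fil j` -/
def kmFil {ζ : KmF p L} (hζ : IsPrimitiveRoot ζ p) (j : ℕ) :
    AddSubgroup (↥(flWildGal p L) → ZMod p) where
  carrier := kmFilSet p L ζ j
  add_mem' := fun h h' => km_filSet_add hζ j h h'
  zero_mem' := km_filSet_zero ζ j
  neg_mem' := fun h => km_filSet_neg hζ j h

theorem mem_kmFil {ζ : KmF p L} (hζ : IsPrimitiveRoot ζ p) (j : ℕ)
    (χ : ↥(flWildGal p L) → ZMod p) :
    χ ∈ kmFil p L hζ j ↔ χ ∈ kmFilSet p L ζ j := Iff.rfl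

/-- **block KUM (top)**: the assembly. -/
theorem km_exists_tameKummerData (hp2 : p ≠ 2) (hL : FlBounded p L) {ζ : L}
    (hζ : IsPrimitiveRoot ζ p) :
    ∃ D : TameKummerData p (L ≃ₐ[ℚ_[p]] L),
      (∀ (g : L ≃ₐ[ℚ_[p]] L) (μ : L), μ ^ p = 1 → g μ = μ ^ ((D.ω g : ZMod p).val)) ∧
      D.I = flInertiaGal p L := by
  classical
  have hp : p.Prime := Fact.out
  have hne : NeZero p := ⟨hp.ne_zero⟩
  obtain ⟨φ, hφ1, hφ2⟩ := km_exists_frob p L
  have hζmem := km_zeta_mem p L hζ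
  obtain ⟨ζF, hζFdef⟩ : ∃ ζF : KmF p L, algebraMap (KmF p L) L ζF = ζ := ⟨⟨ζ, hζmem⟩, rfl⟩
  have hζF : IsPrimitiveRoot ζF p :=
    IsPrimitiveRoot.of_map_of_injective (f := algebraMap (KmF p L) L) (hζFdef ▸ hζ)
      (algebraMap (KmF p L) L).injective
  obtain ⟨ϖ, hϖ⟩ := exists_isLfUniformizer p (KmF p L)
  have hϖ0 : ϖ ≠ 0 := IsLfUniformizer.ne_zero p (KmF p L) hϖ
  have htame := km_tame p L
  -- `e' > 0` and `e(F/ℚ_p) = (p - 1) e'`
  have hord := rm_ord_zeta_sub_one p (KmF p L) hζF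
  have hprime := rm_lfOrd_prime p (KmF p L)
  have hepos : 0 < lfRamIdx p ℚ_[p] (KmF p L) := lfRamIdx_pos p ℚ_[p] (KmF p L)
  have hp1 : (0 : ℤ) < (p : ℤ) - 1 := by
    have := hp.two_le
    have h2 : (2 : ℤ) ≤ (p : ℤ) := by exact_mod_cast this
    linarith
  have hordpos : 0 < lfOrd p (KmF p L) (ζF - 1) := by
    rw [hprime] at hord
    have h1 : (0 : ℤ) < ((p : ℤ) - 1) * lfOrd p (KmF p L) (ζF - 1) := by
      rw [hord]; exact_mod_cast hepos
    exact (mul_pos_iff_of_pos_left hp1).mp h1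
  have hE' : ((kmE' p L ζF : ℕ) : ℤ) = lfOrd p (KmF p L) (ζF - 1) :=
    Int.toNat_of_nonneg hordpos.le
  have he'pos : 0 < kmE' p L ζF := by
    have : (0 : ℤ) < (kmE' p L ζF : ℤ) := by rw [hE']; exact hordpos
    exact_mod_cast this
  have heq : lfRamIdx p ℚ_[p] (KmF p L) = (p - 1) * kmE' p L ζF := by
    have h1 : ((lfRamIdx p ℚ_[p] (KmF p L) : ℕ) : ℤ) = (((p - 1) * kmE' p L ζF : ℕ) : ℤ) := by
      rw [← hprime, ← hord, Nat.cast_mul, hE', Nat.cast_sub hp.one_le, Nat.cast_one]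
    exact_mod_cast h1
  -- the cyclotomic character
  have hω : ∀ (g : L ≃ₐ[ℚ_[p]] L) (μ : L), μ ^ p = 1 →
      g μ = μ ^ ((hζ.autToPow ℚ_[p] g : ZMod p).val) := by
    intro g μ hμ
    obtain ⟨i, -, rfl⟩ := hζ.eq_pow_of_pow_eq_one hμ
    rw [map_pow, ← hζ.autToPow_spec ℚ_[p] g, ← pow_mul, ← pow_mul, mul_comm]
  have hFilchar : ∀ j, ∀ χ ∈ kmFil p L hζF j, ∀ x y : ↥(flWildGal p L), χ (x * y) = χ x + χ y :=
    fun j χ hχ => hχ.1
  have hFilanti : Antitone (kmFil p L hζF) := fun i j hij χ hχ => kmFilSet_anti ζF hij hχ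
  have hFillow : ∀ χ : ↥(flWildGal p L) → ZMod p, (∀ x y : ↥(flWildGal p L), χ (x * y) = χ x + χ y) →
      χ ∈ kmFil p L hζF ((p - 1) * kmE' p L ζF) :=
    fun χ hχ => km_fil_low p L hp2 hL htame hζF χ hχ
  have hFiltop : ∀ χ ∈ kmFil p L hζF (p * kmE' p L ζF), χ = 0 :=
    fun χ hχ => km_fil_top p L hζF hχ
  refine ⟨{
    P := flWildGal p L
    I := flInertiaGal p L
    P_normal := inferInstance
    I_normal := inferInstance
    P_le_I := flWildGal_le_inertia p L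
    isPGroup := km_wild_isPGroup p L
    φ := φ
    gen := hφ2
    ω := hζ.autToPow ℚ_[p]
    kF := kmK p L
    act := kmAct p L
    act_I := fun σ hσ x => kmAct_inertia hσ x
    act_φ := ?_
    u := kmU p L ϖ
    u_mul := kmU_mul hϖ0
    u_eq_one_iff := fun σ hσ => km_u_eq_one_iff p L hϖ hσ
    e' := kmE' p L ζF
    e'_pos := he'pos
    u_pow := ?_
    card_I := ?_
    Fil := kmFil p L hζF
    Fil_char := hFilchar
    Fil_anti := hFilanti
    Fil_low := hFillow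
    Fil_top := hFiltop
    Fil_conj := fun j g χ hχ => km_filSet_conj hζF g j hχ
    ι := kmIota p L ζF ϖ
    ι_add := ?_
    ι_eq_zero_iff := ?_
    ι_dvd := ?_
    ι_conj := ?_ }, hω, rfl⟩
  · -- act_φ
    intro c
    obtain ⟨x, rfl⟩ := residue_surjective c
    rw [← kmRes_coe, kmAct_kmRes, ← kmRes_pow x.2,
      kmRes_eq_iff (algEquiv_mem_lfInt p ℚ_[p] L φ x.2) (pow_mem x.2 p)]
    exact hφ1 _ x.2
  · -- u_pow
    intro σ hσ
    refine km_u_pow p L hζF hϖ hσ _ ?_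
    rw [hζFdef]
    exact hω σ ζ hζ.pow_eq_one
  · -- card_I
    rw [km_card_inertia_eq p L, heq]
  · -- ι_add
    intro j χ hχ χ' hχ'
    by_cases hr : KmInRange p L ζF j
    · exact km_iota_add hζF hϖ hr hχ hχ'
    · rw [kmIota_of_not_inRange hr, kmIota_of_not_inRange hr, kmIota_of_not_inRange hr, add_zero]
  · -- ι_eq_zero_iff
    intro j χ hχ
    by_cases hr : KmInRange p L ζF j
    · exact km_iota_eq_zero_iff hζF hϖ hr hχ
    · rw [kmIota_of_not_inRange hr]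
      refine ⟨fun _ => ?_, fun _ => rfl⟩
      by_cases h1 : (p - 1) * kmE' p L ζF ≤ j
      · by_cases h2 : j < p * kmE' p L ζF
        · have hdvd : p ∣ j := by
            by_contra hnd
            exact hr ⟨h1, h2, hnd⟩
          exact km_filSet_succ_of_dvd hζF h1 h2 hdvd hχ
        · have h0 : χ = 0 := hFiltop χ (hFilanti (not_lt.mp h2) hχ)
          rw [h0]
          exact (kmFil p L hζF (j + 1)).zero_mem
      · exact hFilanti (by omega) (hFillow χ (hFilchar j χ hχ))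
  · -- ι_dvd
    intro j hj χ hχ
    exact kmIota_of_not_inRange (fun hr => hr.2.2 hj) χ
  · -- ι_conj
    intro j g χ hχ
    refine km_iota_conj hζF hϖ g j hχ _ ((hζ.autToPow ℚ_[p] g : ZMod p).val) ?_ ?_
    · rw [hζFdef]
      exact hω g ζ hζ.pow_eq_one
    · rw [Nat.cast_mul, ZMod.natCast_val, ZMod.natCast_val, ZMod.cast_id', id, id]
      exact Units.inv_mul _

end Assembly

section Top

variable (p : ℕ) [Fact p.Prime]

/-- **block KUM (top)**, VERBATIM `Flat/Spec.lean` (helper25). -/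
theorem fl_exists_tameKummerData (hp2 : p ≠ 2)
    (L : Type) [Field L] [Algebra ℚ_[p] L] [FiniteDimensional ℚ_[p] L] [IsGalois ℚ_[p] L]
    (hL : FlBounded p L) {ζ : L} (hζ : IsPrimitiveRoot ζ p) :
    ∃ D : TameKummerData p (L ≃ₐ[ℚ_[p]] L),
      (∀ (g : L ≃ₐ[ℚ_[p]] L) (μ : L), μ ^ p = 1 → g μ = μ ^ ((D.ω g : ZMod p).val)) ∧
      D.I = flInertiaGal p L :=
  km_exists_tameKummerData p L hp2 hL hζ

end Top

end Fermat.Agent.S56
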