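/-
S56 / FLAT / KUM block, leaf TAME (helper15): the maximal tame subextension `F = L^P` of a finite
Galois extension `L/ℚ_p`: `e(F/ℚ_p) = [I:P]` is prime to `p`, `ζ_p ∈ F`, and the crossed
homomorphism `u` (`kmU`) detects wild inertia and has `u ^ e' = ω` on inertia.
Statements VERBATIM from `Kum/SpecTame.lean` (helper29, 9435259).
-/
import Fermat.Agent.S56.Flat.Kum.Inertia
import Fermat.Agent.S56.Flat.Kum.Wild

set_option autoImplicit false
set_option linter.unusedVariables false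
set_option linter.unusedSectionVars false

noncomputable section

namespace Fermat.Agent.S56

open Fermat.Agent.S55 IsLocalRing

variable (p : ℕ) [Fact p.Prime]
  (L : Type) [Field L] [Algebra ℚ_[p] L] [FiniteDimensional ℚ_[p] L] [IsGalois ℚ_[p] L]

section TameAux

/-- `L/F` is totally ramified -/
theorem kmt_totRam : LfTotRam p (KmF p L) L := by
  apply km_totRam_of_fixingSubgroup_le p L (flTameField p L)
  rw [IntermediateField.fixingSubgroup_fixedField]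
  exact flWildGal_le_inertia p L

/-- `e(L/F) = |P|` -/
theorem kmt_ramIdx_top : lfRamIdx p (KmF p L) L = Nat.card ↥(flWildGal p L) := by
  rw [rm_ramIdx_eq_finrank p (KmF p L) L (kmt_totRam p L)]
  exact IntermediateField.finrank_fixedField_eq_card (flWildGal p L)

/-- `|P|` is a power of `p` -/
theorem kmt_card_wild : ∃ m : ℕ, Nat.card ↥(flWildGal p L) = p ^ m :=
  IsPGroup.iff_card.mp (km_wild_isPGroup p L)

variable {p L} in
/-- in characteristic `p`: `c ^ (p ^ m) = 1 ⟺ c = 1` -/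
theorem kmt_pow_char_pow_eq_one_iff (c : kmK p L) (m : ℕ) : c ^ p ^ m = 1 ↔ c = 1 := by
  constructor
  · intro h
    have h1 : (c - 1) ^ p ^ m = 0 := by rw [sub_pow_char_pow, h, one_pow, sub_self]
    exact sub_eq_zero.mp (pow_eq_zero_iff (pow_ne_zero m (Fact.out : p.Prime).ne_zero) |>.mp h1)
  · intro h
    rw [h, one_pow]

variable {p L} in
/-- a `p`-th root of unity has residue `1` -/
theorem kmt_res_root {ξ : L} (hξ : ξ ^ p = 1) : kmRes p L ξ = 1 := by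
  have hp : p.Prime := Fact.out
  have hint : ξ ∈ lfInt p L := lu_mem_lfInt_of_pow_eq_one p L hp.ne_zero hξ
  have h1 : kmRes p L ξ ^ p ^ 1 = 1 := by
    rw [pow_one, ← kmRes_pow hint, hξ, kmRes_one]
  exact (kmt_pow_char_pow_eq_one_iff _ 1).mp h1

variable {p L} in
/-- the residue of `1 + ξ + ... + ξ^(a-1)` is `a` -/
theorem kmt_res_geom {ξ : L} (hξ : ξ ^ p = 1) (a : ℕ) :
    (∑ i ∈ Finset.range a, ξ ^ i) ∈ lfInt p L ∧
      kmRes p L (∑ i ∈ Finset.range a, ξ ^ i) = (a : kmK p L) := by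
  have hp : p.Prime := Fact.out
  have hint : ξ ∈ lfInt p L := lu_mem_lfInt_of_pow_eq_one p L hp.ne_zero hξ
  induction a with
  | zero => exact ⟨by simp, by simp⟩
  | succ a ih =>
    rw [Finset.sum_range_succ]
    refine ⟨add_mem ih.1 (pow_mem hint a), ?_⟩
    rw [kmRes_add ih.1 (pow_mem hint a), ih.2, kmRes_pow hint, kmt_res_root hξ, one_pow,
      Nat.cast_succ]

end TameAux

section Tame

/-- `|I| = e(F/ℚ_p) |P|` -/
theorem km_card_inertia_eq :
    Nat.card ↥(flInertiaGal p L) = lfRamIdx p ℚ_[p] (KmF p L) * Nat.card ↥(flWildGal p L) := by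
  rw [km_card_inertia, lfRamIdx_tower p ℚ_[p] (KmF p L) L, kmt_ramIdx_top]

/-- `F/ℚ_p` is tamely ramified -/
theorem km_tame : LfTame p ℚ_[p] (KmF p L) := by
  unfold LfTame
  have h1 := km_card_inertia_eq p L
  have h2 : Nat.card ↥(flWildGal p L) * (flWildGal p L).relIndex (flInertiaGal p L) =
      Nat.card ↥(flInertiaGal p L) := by
    have := Subgroup.relIndex_mul_relIndex (H := (⊥ : Subgroup (L ≃ₐ[ℚ_[p]] L)))
      (K := flWildGal p L) (L := flInertiaGal p L) bot_le (flWildGal_le_inertia p L)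
    rwa [Subgroup.relIndex_bot_left, Subgroup.relIndex_bot_left] at this
  have hpos : 0 < Nat.card ↥(flWildGal p L) := Nat.card_pos
  have h3 : lfRamIdx p ℚ_[p] (KmF p L) = (flWildGal p L).relIndex (flInertiaGal p L) := by
    rw [h1, mul_comm] at h2
    exact (Nat.eq_of_mul_eq_mul_right hpos h2).symm
  rw [h3]
  exact km_wild_relIndex p L

/-- `ζ_p ∈ F` -/
theorem km_zeta_mem {ζ : L} (hζ : IsPrimitiveRoot ζ p) : ζ ∈ flTameField p L := by
  have hp : p.Prime := Fact.out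
  rw [mem_flTameField]
  intro σ hσ
  have : NeZero p := ⟨hp.ne_zero⟩
  have hspec := IsPrimitiveRoot.autToPow_spec ℚ_[p] hζ σ
  obtain ⟨k, hk⟩ := km_wild_isPGroup p L ⟨σ, hσ⟩
  have hσk : σ ^ p ^ k = 1 := congrArg Subtype.val hk
  have h1 : (IsPrimitiveRoot.autToPow ℚ_[p] hζ σ) ^ p ^ k = 1 := by
    rw [← map_pow, hσk, map_one]
  have h2 : (IsPrimitiveRoot.autToPow ℚ_[p] hζ σ) ^ (p - 1) = 1 :=
    ZMod.units_pow_card_sub_one_eq_one p _
  have hcop : Nat.Coprime (p ^ k) (p - 1) := by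
    apply Nat.Coprime.pow_left
    exact Nat.coprime_of_lt_prime (by have := hp.two_le; omega) (by have := hp.two_le; omega) hp
  have h3 : IsPrimitiveRoot.autToPow ℚ_[p] hζ σ = 1 := by
    have := pow_gcd_eq_one.mpr ⟨h1, h2⟩
    rwa [hcop.gcd_eq_one, pow_one] at this
  rw [← hspec, h3, Units.val_one, ZMod.val_one, pow_one]

/-- on inertia, `u σ = 1 ⟺ σ ∈ P` -/
theorem km_u_eq_one_iff {ϖ : KmF p L} (hϖ : IsLfUniformizer p (KmF p L) ϖ)
    {σ : L ≃ₐ[ℚ_[p]] L} (hσ : σ ∈ flInertiaGal p L) :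
    kmU p L ϖ σ = 1 ↔ σ ∈ flWildGal p L := by
  obtain ⟨π₁, hπ₁⟩ := exists_isLfUniformizer p L
  have hϖ0 : ϖ ≠ 0 := IsLfUniformizer.ne_zero p _ hϖ
  have hϖ0' : algebraMap (KmF p L) L ϖ ≠ 0 :=
    (map_ne_zero_iff _ (algebraMap (KmF p L) L).injective).mpr hϖ0
  obtain ⟨m, hm⟩ := kmt_card_wild p L
  have hord : lfOrd p L (algebraMap (KmF p L) L ϖ) = ((p ^ m : ℕ) : ℤ) := by
    rw [lfOrd_algebraMap p (KmF p L) L, show lfOrd p (KmF p L) ϖ = 1 from hϖ, mul_one,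
      kmt_ramIdx_top, hm]
  have hθ := km_res_quot_of_inertia p L hπ₁ hσ hϖ0'
  rw [hord, zpow_natCast] at hθ
  rw [km_mem_wild_iff p L hπ₁ hσ, ← Units.val_inj, kmU_coe hϖ0, hθ, Units.val_one]
  exact kmt_pow_char_pow_eq_one_iff _ m

/-- on inertia, `u^e'` is the cyclotomic character -/
theorem km_u_pow {ζ : KmF p L} (hζ : IsPrimitiveRoot ζ p) {ϖ : KmF p L}
    (hϖ : IsLfUniformizer p (KmF p L) ϖ) {σ : L ≃ₐ[ℚ_[p]] L} (hσ : σ ∈ flInertiaGal p L)
    (a : ℕ) (ha : σ (algebraMap (KmF p L) L ζ) = algebraMap (KmF p L) L ζ ^ a) :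
    ((kmU p L ϖ σ : (kmK p L)ˣ) : kmK p L) ^ kmE' p L ζ = (a : kmK p L) := by
  have hp : p.Prime := Fact.out
  obtain ⟨π₁, hπ₁⟩ := exists_isLfUniformizer p L
  have hϖ0 : ϖ ≠ 0 := IsLfUniformizer.ne_zero p _ hϖ
  have hϖ0' : algebraMap (KmF p L) L ϖ ≠ 0 :=
    (map_ne_zero_iff _ (algebraMap (KmF p L) L).injective).mpr hϖ0
  have hζ1 : ζ ≠ 1 := hζ.ne_one hp.one_lt
  have hy0 : ζ - 1 ≠ 0 := sub_ne_zero.mpr hζ1
  have hy0' : algebraMap (KmF p L) L (ζ - 1) ≠ 0 :=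
    (map_ne_zero_iff _ (algebraMap (KmF p L) L).injective).mpr hy0
  have hint : ζ - 1 ∈ lfInt p (KmF p L) :=
    sub_mem (lu_mem_lfInt_of_pow_eq_one p _ hp.ne_zero hζ.pow_eq_one) (one_mem _)
  have hnn : 0 ≤ lfOrd p (KmF p L) (ζ - 1) := (mem_lfInt_iff_lfOrd p _ hy0).mp hint
  have he' : ((kmE' p L ζ : ℕ) : ℤ) = lfOrd p (KmF p L) (ζ - 1) := Int.toNat_of_nonneg hnn
  have hθϖ := km_res_quot_of_inertia p L hπ₁ hσ hϖ0'
  have hθy := km_res_quot_of_inertia p L hπ₁ hσ hy0'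
  rw [lfOrd_algebraMap p (KmF p L) L] at hθϖ hθy
  rw [show lfOrd p (KmF p L) ϖ = 1 from hϖ, mul_one] at hθϖ
  rw [kmU_coe hϖ0, hθϖ, ← zpow_natCast, ← zpow_mul, he', ← hθy]
  -- `σ (ζ - 1) / (ζ - 1) = 1 + ζ + ... + ζ^(a-1)`
  have hξ : (algebraMap (KmF p L) L ζ) ^ p = 1 := by
    rw [← map_pow, hζ.pow_eq_one, map_one]
  have hgeom : σ (algebraMap (KmF p L) L (ζ - 1)) / algebraMap (KmF p L) L (ζ - 1) =
      ∑ i ∈ Finset.range a, (algebraMap (KmF p L) L ζ) ^ i := by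
    rw [div_eq_iff hy0']
    rw [map_sub, map_one, map_sub, map_one, ha, geom_sum_mul]
  rw [hgeom]
  exact (kmt_res_geom hξ a).2

end Tame

end Fermat.Agent.S56
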